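import Fermat.Agent.Corollaries.Nagell.Lucas

/-!
# A class of order `n` in `ℚ(√(1 - 4 qⁿ))`

`K` is a quadratic field which contains a square root `s` of `D = 1 - 4 q ^ n`, where `q` is a
prime number, `q ≡ 11` modulo `12`, `q ∤ n`. The ideal of `(1 + s) / 2` is the `n`-th power of an
ideal whose class has order exactly `n` (`exists_orderOf_eq`).
-/

set_option autoImplicit false

namespace Fermat.Agent.Cor.Nagell

open NumberField Module Polynomial

variable {K : Type*} [Field K] [NumberField K]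

theorem ratCast_ne {D : ℤ} (hD : D < 0) {s : K} (hs : s ^ 2 = D) (c : ℚ) : s ≠ c := by
  rintro rfl
  have h1 : ((c ^ 2 : ℚ) : K) = ((D : ℚ) : K) := by push_cast; exact hs
  have h2 : c ^ 2 = (D : ℚ) := Rat.cast_injective h1
  have h3 : (0 : ℚ) ≤ D := h2 ▸ sq_nonneg c
  have h4 : (0 : ℤ) ≤ D := by exact_mod_cast h3
  omega

/-- Every element of `K` is `a + b s`. -/
theorem exists_coord (hK : finrank ℚ K = 2) {D : ℤ} (hD : D < 0) {s : K} (hs : s ^ 2 = D)
    (x : K) : ∃ a b : ℚ, x = a + b * s := by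
  have hli : LinearIndependent ℚ ![(1 : K), s] := by
    rw [LinearIndependent.pair_iff]
    intro a b h
    rw [Algebra.smul_def, Algebra.smul_def, mul_one, eq_ratCast, eq_ratCast] at h
    have hb : b = 0 := by
      by_contra hb
      have hb' : (b : K) ≠ 0 := by exact_mod_cast hb
      apply ratCast_ne hD hs (-(a / b))
      push_cast
      field_simp
      linear_combination h
    rw [hb, Rat.cast_zero, zero_mul, add_zero] at h
    exact ⟨by exact_mod_cast h, hb⟩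
  let B := basisOfLinearIndependentOfCardEqFinrank hli (by rw [Fintype.card_fin, hK])
  have h := B.sum_repr x
  rw [Fin.sum_univ_two] at h
  have h0 : B 0 = 1 := by
    rw [coe_basisOfLinearIndependentOfCardEqFinrank]; rfl
  have h1 : B 1 = s := by
    rw [coe_basisOfLinearIndependentOfCardEqFinrank]; rfl
  rw [h0, h1, Algebra.smul_def, Algebra.smul_def, mul_one, eq_ratCast, eq_ratCast] at h
  exact ⟨_, _, h.symm⟩

/-- The conjugation. -/
theorem exists_conj (hK : finrank ℚ K = 2) {D : ℤ} (hD : D < 0) {s : K} (hs : s ^ 2 = D) :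
    ∃ τ : K ≃ₐ[ℚ] K, τ s = -s := by
  have : Algebra.IsQuadraticExtension ℚ K := { finrank_eq_two' := hK }
  by_contra hc
  push Not at hc
  have h1 : ∀ τ : K ≃ₐ[ℚ] K, τ s = s := fun τ => by
    have h2 : (τ s) ^ 2 = s ^ 2 := by rw [← map_pow, hs, map_intCast]
    rcases sq_eq_sq_iff_eq_or_eq_neg.mp h2 with h3 | h3
    · exact h3
    · exact absurd h3 (hc τ)
  have h2 : s ∈ (⊥ : IntermediateField ℚ K) := (IsGalois.mem_bot_iff_fixed s).mpr h1
  obtain ⟨c, hc⟩ := IntermediateField.mem_bot.mp h2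
  rw [eq_ratCast] at hc
  exact ratCast_ne hD hs c hc.symm

theorem exists_int_of_rat {x : K} (hx : IsIntegral ℤ x) {a : ℚ} (h : x = a) :
    ∃ m : ℤ, x = m := by
  have h1 : IsIntegral ℤ a := by
    rw [h, ← eq_ratCast (algebraMap ℚ K)] at hx
    exact (isIntegral_algebraMap_iff (algebraMap ℚ K).injective).mp hx
  obtain ⟨m, hm⟩ := IsIntegrallyClosed.isIntegral_iff.mp h1
  refine ⟨m, ?_⟩
  rw [h, ← hm]
  simp

theorem exists_int_sq {y : ℚ} {m : ℤ} (h : y ^ 2 = m) : ∃ z : ℤ, z ^ 2 = m := by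
  have h1 : IsIntegral ℤ y := by
    refine IsIntegral.of_pow (n := 2) two_pos ?_
    rw [h]
    exact isIntegral_algebraMap (R := ℤ) (A := ℚ) (x := m)
  obtain ⟨z, hz⟩ := IsIntegrallyClosed.isIntegral_iff.mp h1
  refine ⟨z, ?_⟩
  rw [← hz] at h
  have h2 : ((z : ℚ)) ^ 2 = m := by simpa using h
  exact_mod_cast h2

/-- The trace `P` and the norm `Q` of an integer `x` of `K`. -/
theorem exists_trace_norm (hK : finrank ℚ K = 2) {D : ℤ} (hD : D < 0) {s : K} (hs : s ^ 2 = D)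
    {τ : K ≃ₐ[ℚ] K} (hτ : τ s = -s) (x : 𝓞 K) : ∃ (P Q : ℤ) (c : ℚ), (x : K) + τ x = P ∧
    (x : K) * τ x = Q ∧ (P : ℚ) ^ 2 - 4 * Q = c ^ 2 * D ∧ (2 : K) * x = P + c * s := by
  obtain ⟨a, b, hx⟩ := exists_coord hK hD hs (x : K)
  have hτx : τ (x : K) = a - b * s := by
    rw [hx, map_add, map_mul, hτ, map_ratCast, map_ratCast]
    ring
  have hi : IsIntegral ℤ (x : K) := RingOfIntegers.isIntegral_coe x
  have hi' : IsIntegral ℤ (τ (x : K)) := hi.map (τ.restrictScalars ℤ)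
  obtain ⟨P, hP⟩ := exists_int_of_rat (hi.add hi') (a := 2 * a)
    (by rw [hτx, hx]; push_cast; ring)
  obtain ⟨Q, hQ⟩ := exists_int_of_rat (hi.mul hi') (a := a ^ 2 - b ^ 2 * D)
    (by rw [hτx, hx]; push_cast; linear_combination (-(b : K) ^ 2) * hs)
  have hPa : (P : ℚ) = 2 * a := by
    have h1 : ((P : ℚ) : K) = ((2 * a : ℚ) : K) := by
      push_cast
      rw [← hP, hτx, hx]
      ring
    exact Rat.cast_injective h1
  have hQa : (Q : ℚ) = a ^ 2 - b ^ 2 * D := by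
    have h1 : ((Q : ℚ) : K) = ((a ^ 2 - b ^ 2 * D : ℚ) : K) := by
      push_cast
      rw [← hQ, hτx, hx]
      linear_combination (-(b : K) ^ 2) * hs
    exact Rat.cast_injective h1
  refine ⟨P, Q, 2 * b, hP, hQ, ?_, ?_⟩
  · rw [hPa, hQa]
    ring
  · have h1 : ((P : ℚ) : K) = ((2 * a : ℚ) : K) := by rw [hPa]
    push_cast at h1 ⊢
    rw [hx, h1]
    ring

/-- The units of `K` are `± 1`. -/
theorem eq_or_eq_neg_of_unit (hK : finrank ℚ K = 2) {E : ℤ} (hE : 0 < E) {s : K}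
    (hs : s ^ 2 = ((-E : ℤ) : K)) (hE1 : ∀ y : ℤ, y ^ 2 ≠ E) (hE3 : ∀ y : ℤ, y ^ 2 ≠ 3 * E)
    (u : (𝓞 K)ˣ) : (u : 𝓞 K) = 1 ∨ (u : 𝓞 K) = -1 := by
  have hD : -E < 0 := by omega
  obtain ⟨τ, hτ⟩ := exists_conj hK hD hs
  obtain ⟨P, Q, c, hP, hQ, hPQ, hc⟩ := exists_trace_norm hK hD hs hτ (u : 𝓞 K)
  obtain ⟨P', Q', c', hP', hQ', hPQ', hc'⟩ := exists_trace_norm hK hD hs hτ ((u⁻¹ : (𝓞 K)ˣ) : 𝓞 K)
  have hE' : (0 : ℚ) < E := by exact_mod_cast hE
  have hQ0 : (0 : ℚ) ≤ Q := by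
    push_cast at hPQ
    nlinarith [sq_nonneg (P : ℚ), mul_nonneg (sq_nonneg c) hE'.le]
  have hQ0' : 0 ≤ Q := by exact_mod_cast hQ0
  have hQQ : Q * Q' = 1 := by
    have h1 : ((Q * Q' : ℤ) : K) = ((1 : ℤ) : K) := by
      push_cast
      rw [← hQ, ← hQ']
      have h2 : ((u : 𝓞 K) : K) * (((u⁻¹ : (𝓞 K)ˣ) : 𝓞 K) : K) = 1 := by
        rw [← map_mul, Units.mul_inv, map_one]
      calc ((u : 𝓞 K) : K) * τ ((u : 𝓞 K) : K) *
          ((((u⁻¹ : (𝓞 K)ˣ) : 𝓞 K) : K) * τ (((u⁻¹ : (𝓞 K)ˣ) : 𝓞 K) : K)) =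
          (((u : 𝓞 K) : K) * (((u⁻¹ : (𝓞 K)ˣ) : 𝓞 K) : K)) *
            (τ ((u : 𝓞 K) : K) * τ (((u⁻¹ : (𝓞 K)ˣ) : 𝓞 K) : K)) := by ring
        _ = 1 := by rw [← map_mul τ, h2, map_one, mul_one]
    exact Int.cast_injective h1
  have hQ1 : Q = 1 := by
    rcases Int.isUnit_iff.mp (IsUnit.of_mul_eq_one _ hQQ) with h | h
    · exact h
    · omega
  rw [hQ1] at hPQ
  push_cast at hPQ
  have hPQ2 : c ^ 2 * E = 4 - (P : ℚ) ^ 2 := by linarith
  have hP4 : P ^ 2 ≤ 4 := by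
    have h1 : (P : ℚ) ^ 2 ≤ 4 := by nlinarith [mul_nonneg (sq_nonneg c) hE'.le]
    exact_mod_cast h1
  have hPle : P ≤ 2 := by nlinarith
  have hPge : -2 ≤ P := by nlinarith
  have h3case : P ^ 2 = 1 → False := by
    intro h
    have h1 : (P : ℚ) ^ 2 = 1 := by exact_mod_cast h
    rw [h1] at hPQ2
    obtain ⟨z, hz⟩ := exists_int_sq (y := c * E) (m := 3 * E) (by
      push_cast
      linear_combination (E : ℚ) * hPQ2)
    exact hE3 z hz
  have h2case : P ^ 2 = 4 → (u : 𝓞 K) = 1 ∨ (u : 𝓞 K) = -1 := by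
    intro h
    have h1 : (P : ℚ) ^ 2 = 4 := by exact_mod_cast h
    rw [h1, sub_self] at hPQ2
    have h2 : c = 0 := by
      rcases mul_eq_zero.mp hPQ2 with h3 | h3
      · exact pow_eq_zero_iff two_ne_zero |>.mp h3
      · exact absurd h3 hE'.ne'
    rw [h2, Rat.cast_zero, zero_mul, add_zero] at hc
    have h3 : (P - 2) * (P + 2) = 0 := by linear_combination h
    rcases mul_eq_zero.mp h3 with h4 | h4
    · left
      have h5 : P = 2 := by omega
      rw [h5] at hc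
      refine RingOfIntegers.ext (show ((u : 𝓞 K) : K) = (1 : K) from ?_)
      push_cast at hc
      linear_combination hc / 2
    · right
      have h5 : P = -2 := by omega
      rw [h5] at hc
      have h6 : ((u : 𝓞 K) : K) = -1 := by
        push_cast at hc
        linear_combination hc / 2
      apply FaithfulSMul.algebraMap_injective (𝓞 K) K
      rw [map_neg, map_one]
      exact h6
  have hP5 : P = -2 ∨ P = -1 ∨ P = 0 ∨ P = 1 ∨ P = 2 := by omega
  rcases hP5 with h | h | h | h | h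
  · exact h2case (by rw [h]; norm_num)
  · exact (h3case (by rw [h]; norm_num)).elim
  · exfalso
    rw [h] at hPQ2
    push_cast at hPQ2
    obtain ⟨z, hz⟩ := exists_int_sq (y := c * E / 2) (m := E) (by
      linear_combination (E : ℚ) * hPQ2 / 4)
    exact hE1 z hz
  · exact (h3case (by rw [h]; norm_num)).elim
  · exact h2case (by rw [h]; norm_num)

theorem not_isSquare_two : ¬ IsSquare ((2 : ℕ) : ZMod 3) := by decide

/-- `4 qⁿ - 1` is not a square, and `3 (4 qⁿ - 1)` neither. -/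
theorem sq_ne {q : ℕ} (hq : q.Prime) (h12 : q % 12 = 11) {n : ℕ} (hn : 0 < n) (y : ℤ) :
    y ^ 2 ≠ 4 * (q : ℤ) ^ n - 1 ∧ y ^ 2 ≠ 3 * (4 * (q : ℤ) ^ n - 1) := by
  constructor
  · intro h
    have h1 : y ^ 2 % 4 = 0 ∨ y ^ 2 % 4 = 1 := by
      have h2 : y % 4 = 0 ∨ y % 4 = 1 ∨ y % 4 = 2 ∨ y % 4 = 3 := by omega
      rcases h2 with h2 | h2 | h2 | h2 <;> simp [pow_two, Int.mul_emod, h2]
    omega
  · intro h
    have : Fact q.Prime := ⟨hq⟩
    have : Fact (Nat.Prime 3) := ⟨Nat.prime_three⟩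
    have h1 : ((y : ZMod q)) ^ 2 = -3 := by
      have h2 : ((y ^ 2 : ℤ) : ZMod q) = ((3 * (4 * (q : ℤ) ^ n - 1) : ℤ) : ZMod q) := by rw [h]
      push_cast at h2
      rw [ZMod.natCast_self, zero_pow hn.ne', mul_zero, zero_sub] at h2
      rw [h2]
      norm_num
    have hq3 : q ≠ 3 := by rintro rfl; omega
    have h3 : IsSquare ((3 : ℕ) : ZMod q) := by
      rw [ZMod.exists_sq_eq_prime_iff_of_mod_four_eq_three (by omega) (by norm_num) hq3]
      have h4 : ((q : ℕ) : ZMod 3) = ((2 : ℕ) : ZMod 3) := by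
        rw [ZMod.natCast_eq_natCast_iff']
        omega
      rw [h4]
      exact not_isSquare_two
    obtain ⟨z, hz⟩ := h3
    have hz0 : z ≠ 0 := by
      rintro rfl
      rw [mul_zero, ZMod.natCast_eq_zero_iff] at hz
      exact hq3 ((Nat.prime_dvd_prime_iff_eq hq Nat.prime_three).mp hz)
    have h5 : IsSquare (-1 : ZMod q) := ⟨(y : ZMod q) / z, by
      have h6 : (3 : ZMod q) = z ^ 2 := by rw [sq]; exact_mod_cast hz
      rw [h6] at h1
      field_simp
      rw [h1]⟩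
    have h6 := (ZMod.exists_sq_eq_neg_one_iff (p := q)).mp h5
    omega

/-- **A class of order `n`**: if `K` is quadratic and contains a square root of `1 - 4 qⁿ`, where
`q ≡ 11` modulo `12` is a prime number which does not divide `n ≥ 1`, then the class group of `K`
has an element of order `n`. -/
theorem exists_orderOf_eq (hK : finrank ℚ K = 2) {q n : ℕ} (hq : q.Prime) (h12 : q % 12 = 11)
    (hn : 0 < n) (hqn : ¬ q ∣ n) {s : K} (hs : s ^ 2 = 1 - 4 * (q : K) ^ n) :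
    ∃ c : ClassGroup (𝓞 K), orderOf c = n := by
  have hq0 : (0 : ℤ) < (q : ℤ) ^ n := by
    have := hq.pos
    positivity
  have hE : (0 : ℤ) < 4 * (q : ℤ) ^ n - 1 := by omega
  have hs' : s ^ 2 = ((-(4 * (q : ℤ) ^ n - 1) : ℤ) : K) := by
    rw [hs]
    push_cast
    ring
  have hD : -(4 * (q : ℤ) ^ n - 1) < 0 := by omega
  have hunit := eq_or_eq_neg_of_unit hK hE hs' (fun y => (sq_ne hq h12 hn y).1)
    (fun y => (sq_ne hq h12 hn y).2)
  obtain ⟨τ, hτ⟩ := exists_conj hK hD hs'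
  -- the integer `α = (1 + s) / 2`
  have hαi : IsIntegral ℤ ((1 + s) / 2) := by
    refine ⟨X ^ 2 - X + C ((q : ℤ) ^ n), by monicity!, ?_⟩
    rw [eval₂_add, eval₂_sub, eval₂_pow, eval₂_X, eval₂_C]
    simp only [algebraMap_int_eq, eq_intCast, Int.cast_pow, Int.cast_natCast]
    linear_combination hs / 4
  let α : 𝓞 K := ⟨(1 + s) / 2, hαi⟩
  have hα : (α : K) = (1 + s) / 2 := rfl
  have hαα : α * (1 - α) = (q : 𝓞 K) ^ n := by
    apply FaithfulSMul.algebraMap_injective (𝓞 K) K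
    have hα' : algebraMap (𝓞 K) K α = (1 + s) / 2 := rfl
    rw [map_mul, map_sub, map_one, map_pow, map_natCast, hα']
    linear_combination (-hs) / 4
  have hτα : τ (α : K) = 1 - α := by
    rw [hα, map_div₀, map_add, map_one, hτ]
    have h2 : τ (2 : K) = 2 := map_ofNat τ 2
    rw [h2]
    ring
  have hα0 : α ≠ 0 := by
    intro h
    rw [h, zero_mul] at hαα
    have h1 : (q : 𝓞 K) ≠ 0 := by exact_mod_cast hq.ne_zero
    exact pow_ne_zero n h1 hαα.symm
  -- `(α) = 𝔞 ^ n`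
  obtain ⟨I, hI⟩ := exists_eq_pow_of_mul_eq_pow_of_coprime
    (a := Ideal.span {α}) (b := Ideal.span {1 - α}) (c := Ideal.span {(q : 𝓞 K)}) (n := n)
    ((Ideal.isCoprime_span_singleton_iff _ _).mpr ⟨1, 1, by ring⟩)
    (by rw [Ideal.span_singleton_mul_span_singleton, hαα, Ideal.span_singleton_pow])
  have hI0 : I ≠ ⊥ := by
    rintro rfl
    rw [← Ideal.zero_eq_bot, zero_pow hn.ne', Ideal.zero_eq_bot,
      Ideal.span_singleton_eq_bot] at hI
    exact hα0 hI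
  have hIm : I ∈ nonZeroDivisors (Ideal (𝓞 K)) := mem_nonZeroDivisors_of_ne_zero hI0
  have hpow : ∀ k : ℕ, ClassGroup.mk0 ⟨I, hIm⟩ ^ k = 1 ↔ (I ^ k).IsPrincipal := by
    intro k
    rw [← map_pow, ← ClassGroup.mk0_eq_one_iff (pow_mem hIm k)]
    rfl
  refine ⟨ClassGroup.mk0 ⟨I, hIm⟩, orderOf_eq_of_pow_and_pow_div_prime hn ?_ ?_⟩
  · rw [hpow, ← hI]
    exact ⟨⟨α, rfl⟩⟩
  · intro ℓ hℓ hℓn h
    rw [hpow] at h
    obtain ⟨j, hj⟩ := hℓn
    have hjn : n / ℓ = j := by rw [hj, Nat.mul_div_cancel_left _ hℓ.pos]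
    have hj0 : 0 < j := by
      rcases Nat.eq_zero_or_pos j with h0 | h0
      · rw [h0, mul_zero] at hj; omega
      · exact h0
    rw [hjn] at h
    obtain ⟨⟨β, hβ⟩⟩ := h
    have hβ' : I ^ j = Ideal.span {β} := hβ
    have h1 : Ideal.span {β ^ ℓ} = Ideal.span {α} := by
      rw [← Ideal.span_singleton_pow, ← hβ', ← pow_mul, hI, hj, mul_comm]
    rw [Ideal.span_singleton_eq_span_singleton] at h1
    obtain ⟨u, hu⟩ := h1
    obtain ⟨P, Q, c, hP, hQ, hPQ, -⟩ := exists_trace_norm hK hD hs' hτ β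
    have hQ0 : (0 : ℚ) ≤ Q := by
      have hE' : (0 : ℚ) < 4 * (q : ℚ) ^ n - 1 := by exact_mod_cast hE
      push_cast at hPQ
      nlinarith [sq_nonneg (P : ℚ), mul_nonneg (sq_nonneg c) hE'.le]
    have hQ0' : 0 ≤ Q := by exact_mod_cast hQ0
    have hε : ∃ ε : ℤ, ε ^ 2 = 1 ∧ ((u : 𝓞 K) : K) = ε := by
      rcases hunit u with h2 | h2
      · exact ⟨1, by norm_num, by rw [h2]; simp⟩
      · exact ⟨-1, by norm_num, by rw [h2]; simp⟩
    obtain ⟨ε, hε2, hε⟩ := hε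
    have hε2' : (ε : K) ^ 2 = 1 := by exact_mod_cast congrArg (fun x : ℤ => (x : K)) hε2
    have hu1 : (β : K) ^ ℓ * ε = α := by
      have h2 := congrArg (algebraMap (𝓞 K) K) hu
      rw [map_mul, map_pow] at h2
      rw [← hε]
      exact h2
    have hu2 : (τ (β : K)) ^ ℓ * ε = 1 - α := by
      rw [← hτα, ← hu1, map_mul, map_pow, map_intCast]
    -- the norm
    have hN : Q = (q : ℤ) ^ j := by
      have h2 : ((Q : ℤ) : K) ^ ℓ = ((q : ℤ) ^ j : ℤ) ^ ℓ := by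
        rw [← hQ, mul_pow]
        have h3 : (α : K) * (1 - α) = (q : K) ^ n := by
          have := congrArg (algebraMap (𝓞 K) K) hαα
          rw [map_mul, map_sub, map_one, map_pow, map_natCast] at this
          exact this
        push_cast
        rw [← pow_mul, mul_comm j ℓ, ← hj, ← h3]
        linear_combination hu1 * ((τ (β : K)) ^ ℓ * ε) + (α : K) * hu2 -
          ((β : K) ^ ℓ * (τ (β : K)) ^ ℓ) * hε2'
      have h3 : Q ^ ℓ = ((q : ℤ) ^ j) ^ ℓ := by exact_mod_cast h2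
      exact (pow_left_inj₀ hQ0' (by positivity) hℓ.ne_zero).mp h3
    -- the trace
    have hV : V P ((q : ℤ) ^ j) ℓ = ε := by
      have h2 := V_eq (R := K) hP hQ ℓ
      rw [hN] at h2
      have h3 : ((V P ((q : ℤ) ^ j) ℓ : ℤ) : K) = (ε : K) := by
        rw [← h2]
        linear_combination (ε : K) * (hu1 + hu2) - ((β : K) ^ ℓ + (τ (β : K)) ^ ℓ) * hε2'
      exact Int.cast_injective h3
    have hqℓ : q ≠ ℓ := by
      rintro rfl
      exact hqn ⟨j, hj⟩
    have h4 := V_ne (P := P) hq h12 hj0 hℓ hqℓ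
    rcases eq_or_eq_neg_of_sq hε2 with h5 | h5
    · exact h4.1 (by rw [hV, h5])
    · exact h4.2 (by rw [hV, h5])

/-- The class number of `K` is divisible by `n`. -/
theorem dvd_classNumber (hK : finrank ℚ K = 2) {q n : ℕ} (hq : q.Prime) (h12 : q % 12 = 11)
    (hn : 0 < n) (hqn : ¬ q ∣ n) {s : K} (hs : s ^ 2 = 1 - 4 * (q : K) ^ n) :
    n ∣ classNumber K := by
  obtain ⟨c, hc⟩ := exists_orderOf_eq hK hq h12 hn hqn hs
  rw [← hc, classNumber]
  exact orderOf_dvd_card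

end Fermat.Agent.Cor.Nagell
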