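import Mathlib

/-!
# Primes `q ≡ 11` modulo `12` such that `4 qⁿ - 1` has a large prime factor of multiplicity one

`exists_primes`: for all `n ≥ 1` and `B` there are a prime number `q ≡ 11` modulo `12`, `q > n`,
and a prime number `r > B` which divides `4 q ^ n - 1` exactly once.
-/

set_option autoImplicit false

namespace Fermat.Agent.Cor.Nagell

/-- For all `n ≥ 1` and `B` there are a prime number `r > B` and an integer `y` such that `r`
divides `4 y ^ n - 1` exactly once. -/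
theorem exists_prime_exactly (n : ℕ) (hn : 0 < n) (B : ℕ) : ∃ r y : ℕ, r.Prime ∧ B < r ∧
    (r : ℤ) ∣ 4 * (y : ℤ) ^ n - 1 ∧ ¬ (r : ℤ) ^ 2 ∣ 4 * (y : ℤ) ^ n - 1 := by
  -- `x` is divisible by all numbers up to `B + n + 3`
  set x : ℕ := (B + n + 3).factorial with hx
  have hx0 : 0 < x := Nat.factorial_pos _
  have hxn : 0 < x ^ n := pow_pos hx0 n
  have hN : 4 * x ^ n - 1 ≠ 1 := by omega
  obtain ⟨r, hr, hrN⟩ := Nat.exists_prime_and_dvd hN
  have hrN' : (r : ℤ) ∣ 4 * (x : ℤ) ^ n - 1 := by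
    have h1 : ((4 * x ^ n - 1 : ℕ) : ℤ) = 4 * (x : ℤ) ^ n - 1 := by
      rw [Nat.cast_sub (by omega)]
      push_cast
      rfl
    rw [← h1]
    exact_mod_cast hrN
  have hrx : ¬ (r : ℤ) ∣ x := by
    intro h
    have h1 : (r : ℤ) ∣ 1 := by
      have h2 : (1 : ℤ) = 4 * (x : ℤ) ^ n - (4 * (x : ℤ) ^ n - 1) := by ring
      rw [h2]
      exact dvd_sub ((dvd_pow h hn.ne').mul_left _) hrN'
    have h3 : r ∣ 1 := by exact_mod_cast h1
    exact hr.one_lt.ne' (Nat.dvd_one.mp h3)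
  have hrB : B + n + 3 < r := by
    by_contra hc
    exact hrx (by exact_mod_cast (Nat.dvd_factorial hr.pos (not_lt.mp hc)))
  have hrn : ¬ (r : ℤ) ∣ n := by
    intro h
    have h1 : r ∣ n := by exact_mod_cast h
    have := Nat.le_of_dvd hn h1
    omega
  by_cases hc : (r : ℤ) ^ 2 ∣ 4 * (x : ℤ) ^ n - 1
  · refine ⟨r, x * (1 + r), hr, by omega, ?_, ?_⟩
    all_goals
      obtain ⟨k, hk⟩ : (r : ℤ) ^ 2 ∣ (1 + (r : ℤ)) ^ n - (1 + n * r) := by
        have h1 := add_pow (r : ℤ) 1 n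
        have : ∀ m : ℕ, (r : ℤ) ^ 2 ∣ (1 + (r : ℤ)) ^ m - (1 + m * r) := by
          intro m
          induction m with
          | zero => simp
          | succ m ih =>
            obtain ⟨k, hk⟩ := ih
            refine ⟨k * (1 + r) + m, ?_⟩
            have h2 : (1 + (r : ℤ)) ^ m = 1 + m * r + r ^ 2 * k := by linear_combination hk
            rw [pow_succ, h2]
            push_cast
            ring
        exact this n
      obtain ⟨l, hl⟩ := hc
      have h2 : (1 + (r : ℤ)) ^ n = 1 + n * r + r ^ 2 * k := by linear_combination hk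
      have h3 : 4 * ((x * (1 + r) : ℕ) : ℤ) ^ n - 1 = r ^ 2 * (l + k + l * r * n + l * r ^ 2 * k) +
          n * r := by
        push_cast
        rw [mul_pow, h2]
        linear_combination (1 + n * r + r ^ 2 * k) * hl
    · rw [h3]
      exact dvd_add ((dvd_pow_self _ two_ne_zero).mul_right _) (dvd_mul_left _ _)
    · rw [h3]
      intro h
      have h4 := (dvd_add_right (dvd_mul_right _ _)).mp h
      have hr0 : (r : ℤ) ≠ 0 := by exact_mod_cast hr.ne_zero
      rw [sq] at h4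
      exact hrn ((mul_dvd_mul_iff_right hr0).mp h4)
  · exact ⟨r, x, hr, by omega, hrN', hc⟩

/-- **For all `n ≥ 1` and `B` there are a prime number `q ≡ 11` modulo `12`, `q > n`, and a prime
number `r > B` which divides `4 qⁿ - 1` exactly once.** -/
theorem exists_primes (n : ℕ) (hn : 0 < n) (B : ℕ) : ∃ q r : ℕ, q.Prime ∧ q % 12 = 11 ∧ n < q ∧
    r.Prime ∧ B < r ∧ (r : ℤ) ∣ 4 * (q : ℤ) ^ n - 1 ∧ ¬ (r : ℤ) ^ 2 ∣ 4 * (q : ℤ) ^ n - 1 := by
  obtain ⟨r, y, hr, hB, h1, h2⟩ := exists_prime_exactly n hn (max B 3)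
  have hr3 : 3 < r := lt_of_le_of_lt (le_max_right _ _) hB
  have hrc : Nat.Coprime 12 (r ^ 2) := by
    refine Nat.Coprime.pow_right 2 ?_
    have h3 : (12 : ℕ) = 2 * 2 * 3 := by norm_num
    have h4 : Nat.Coprime 2 r := (Nat.coprime_primes Nat.prime_two hr).mpr (by omega)
    have h5 : Nat.Coprime 3 r := (Nat.coprime_primes Nat.prime_three hr).mpr (by omega)
    rw [h3]
    exact Nat.Coprime.mul_left (Nat.Coprime.mul_left h4 h4) h5
  have hry : Nat.Coprime y (r ^ 2) := by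
    refine Nat.Coprime.pow_right 2 ?_
    rw [Nat.coprime_comm, Nat.Prime.coprime_iff_not_dvd hr]
    intro h
    have h3 : (r : ℤ) ∣ y := by exact_mod_cast h
    have h4 : (r : ℤ) ∣ 1 := by
      have h5 : (1 : ℤ) = 4 * (y : ℤ) ^ n - (4 * (y : ℤ) ^ n - 1) := by ring
      rw [h5]
      exact dvd_sub ((dvd_pow h3 hn.ne').mul_left _) h1
    have h6 : r ∣ 1 := by exact_mod_cast h4
    exact hr.one_lt.ne' (Nat.dvd_one.mp h6)
  obtain ⟨z, hz1, hz2⟩ := Nat.chineseRemainder hrc 11 y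
  have hzc : Nat.Coprime z (12 * r ^ 2) := by
    refine Nat.Coprime.mul_right ?_ ?_
    · rw [Nat.Coprime, hz1.gcd_eq]
      norm_num
    · rw [Nat.Coprime, hz2.gcd_eq]
      exact hry
  have : NeZero (12 * r ^ 2) := ⟨by have := hr.ne_zero; positivity⟩
  obtain ⟨q, hqn, hq, hqz⟩ := Nat.forall_exists_prime_gt_and_eq_mod
    ((ZMod.isUnit_iff_coprime z (12 * r ^ 2)).mpr hzc) n
  rw [ZMod.natCast_eq_natCast_iff] at hqz
  have hq12 : q ≡ 11 [MOD 12] := (hqz.of_mul_right _).trans hz1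
  have hqr : q ≡ y [MOD r ^ 2] := (hqz.of_mul_left _).trans hz2
  have hqr' : (q : ℤ) ≡ y [ZMOD (r : ℤ) ^ 2] := by
    have := (Int.natCast_modEq_iff).mpr hqr
    push_cast at this
    exact this
  have h3 : 4 * (q : ℤ) ^ n - 1 ≡ 4 * (y : ℤ) ^ n - 1 [ZMOD (r : ℤ) ^ 2] :=
    ((hqr'.pow n).mul_left 4).sub_right 1
  have h4 : 4 * (q : ℤ) ^ n - 1 ≡ 4 * (y : ℤ) ^ n - 1 [ZMOD (r : ℤ)] :=
    h3.of_dvd (dvd_pow_self _ two_ne_zero)
  refine ⟨q, r, hq, ?_, hqn, hr, lt_of_le_of_lt (le_max_left _ _) hB, ?_, ?_⟩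
  · have h5 : q % 12 = 11 % 12 := hq12
    omega
  · exact (Int.ModEq.dvd_iff h4).mpr h1
  · intro h
    exact h2 ((Int.ModEq.dvd_iff h3).mp h)

end Fermat.Agent.Cor.Nagell
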