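import Fermat.Agent.Corollaries.Nagell.Quad
import Fermat.Agent.Corollaries.Nagell.Primes
import Fermat.Agent.Corollaries.InvGal.Ram37

/-!
# Nagell's theorem (1922)

For every `n ≥ 1` there are infinitely many imaginary quadratic fields whose class number is
divisible by `n` (`nagell`); more precisely infinitely many whose class group has an element of
order `n` (`nagell_orderOf`). The fields are `ℚ(√(1 - 4 qⁿ))` with `q ≡ 11` modulo `12` prime.

* `Quad.lean`: the ideal of `(1 + √(1 - 4 qⁿ)) / 2` is an `n`-th power `𝔞ⁿ`, and the class of `𝔞`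
  has order `n`: otherwise `𝔞ʲ = (β)` with `n = ℓ j`, `ℓ` prime, and the trace of `βˡ = ± α` gives
  `V_ℓ(P, qʲ) = ± 1`, which is impossible (`Lucas.lean`).
* `Primes.lean`: by Dirichlet's theorem the prime `q` can be chosen such that a large prime `r`
  divides `4 qⁿ - 1` exactly once, and `r` divides the discriminant; so the discriminants are not
  bounded.
-/

set_option autoImplicit false

namespace Fermat.Agent.Cor.Nagell

open NumberField Module Polynomial

/-- The field `ℚ(√D) ⊂ ℚ̄`, `D < 0`. -/
theorem exists_quadratic {D : ℤ} (hD : D < 0) : ∃ (K : IntermediateField ℚ (AlgebraicClosure ℚ))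
    (s : K), finrank ℚ K = 2 ∧ s ^ 2 = (D : K) := by
  obtain ⟨s, hs⟩ := IsAlgClosed.exists_pow_nat_eq ((D : AlgebraicClosure ℚ)) two_pos
  have hirr : Irreducible (X ^ 2 - C (D : ℚ)) := by
    refine X_pow_sub_C_irreducible_of_prime Nat.prime_two ?_
    intro b hb
    have h1 : (0 : ℚ) ≤ D := hb ▸ sq_nonneg b
    have h2 : (0 : ℤ) ≤ D := by exact_mod_cast h1
    omega
  have hmin : X ^ 2 - C (D : ℚ) = minpoly ℚ s := by
    refine minpoly.eq_of_irreducible_of_monic hirr ?_ (monic_X_pow_sub_C _ two_ne_zero)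
    simp [hs]
  have hint : IsIntegral ℚ s := Algebra.IsIntegral.isIntegral s
  refine ⟨IntermediateField.adjoin ℚ {s}, IntermediateField.AdjoinSimple.gen ℚ s, ?_, ?_⟩
  · rw [IntermediateField.adjoin.finrank hint, ← hmin, natDegree_X_pow_sub_C]
  · apply Subtype.ext
    push_cast
    rw [IntermediateField.AdjoinSimple.coe_gen, hs]

/-- A quadratic field which contains a square root of a negative integer has negative
discriminant. -/
theorem discr_neg {K : Type*} [Field K] [NumberField K] (hK : finrank ℚ K = 2) {D : ℤ}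
    (hD : D < 0) {s : K} (hs : s ^ 2 = (D : K)) : discr K < 0 := by
  have h1 : IsTotallyComplex K := by
    refine ⟨fun v => ?_⟩
    rw [← InfinitePlace.not_isReal_iff_isComplex]
    intro hv
    have h2 := congrArg (InfinitePlace.embedding_of_isReal hv) hs
    rw [map_pow, map_intCast] at h2
    have h3 : (0 : ℝ) ≤ D := h2 ▸ sq_nonneg _
    have h4 : (0 : ℤ) ≤ D := by exact_mod_cast h3
    omega
  have h2 := IsTotallyComplex.finrank (K := K)
  rw [hK] at h2
  have h3 : InfinitePlace.nrComplexPlaces K = 1 := by omega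
  have h4 := sign_discr K
  rw [h3, pow_one] at h4
  exact Int.sign_eq_neg_one_iff_neg.mp h4

/-- A prime number which divides `D` exactly once divides the discriminant of `ℚ(√D)`. -/
theorem dvd_discr (K : IntermediateField ℚ (AlgebraicClosure ℚ)) [NumberField K]
    (hK : finrank ℚ K = 2) {D : ℤ} (hD : D ≠ 0) {s : K} (hs : s ^ 2 = (D : K)) {r : ℕ}
    (hr : r.Prime) (h1 : (r : ℤ) ∣ D) (h2 : ¬ (r : ℤ) ^ 2 ∣ D) : (r : ℤ) ∣ discr K := by
  have : Algebra.IsQuadraticExtension ℚ K := { finrank_eq_two' := hK }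
  have hrf : Fact r.Prime := ⟨hr⟩
  obtain ⟨A, hA⟩ := Fermat.Agent.Frob.exists_liesOverPrime r hr
  have hs' : (s : AlgebraicClosure ℚ) ^ 2 = (D : AlgebraicClosure ℚ) := by
    have h := congrArg (algebraMap K (AlgebraicClosure ℚ)) hs
    rw [map_pow, map_intCast] at h
    exact h
  have hs0 : (s : AlgebraicClosure ℚ) ≠ 0 := by
    intro h
    rw [h, zero_pow two_ne_zero] at hs'
    exact hD (by exact_mod_cast hs'.symm)
  have hv : padicValInt r D = 1 := by
    have h3 : 1 ≤ padicValInt r D := by
      have := (padicValInt_dvd_iff (p := r) 1 D).mp (by rwa [pow_one])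
      exact this.resolve_left hD
    have h4 : ¬ 2 ≤ padicValInt r D := by
      intro h
      exact h2 ((padicValInt_dvd_iff (p := r) 2 D).mpr (Or.inr h))
    omega
  refine InvGal.dvd_discr_of_valuation K hr hA s.2 hs0 (m := 2) (k := 1) ?_ (by decide)
  have h3 := InvGal.valuation_intCast hr hA hD
  rw [hv, ← hs', map_pow] at h3
  exact_mod_cast h3

/-- **Nagell's theorem, with an element of order `n`**: for every `n ≥ 1` the set of the
discriminants of the imaginary quadratic fields whose class group has an element of order `n` is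
infinite. -/
theorem nagell_orderOf (n : ℕ) (hn : 0 < n) : {d : ℤ | ∃ (K : Type) (_ : Field K)
    (_ : NumberField K), finrank ℚ K = 2 ∧ discr K = d ∧ d < 0 ∧
      ∃ c : ClassGroup (𝓞 K), orderOf c = n}.Infinite := by
  by_contra hfin
  rw [Set.not_infinite] at hfin
  obtain ⟨b, hb⟩ := hfin.bddBelow
  obtain ⟨q, r, hq, h12, hqn, hr, hrb, h1, h2⟩ := exists_primes n hn b.natAbs
  have hq0 : (0 : ℤ) < (q : ℤ) ^ n := by
    have := hq.pos
    positivity
  have hD : -(4 * (q : ℤ) ^ n - 1) < 0 := by omega
  obtain ⟨K, s, hK, hs⟩ := exists_quadratic hD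
  have : FiniteDimensional ℚ K := Module.finite_of_finrank_pos (by omega)
  have : NumberField K := ⟨⟩
  have h3 := discr_neg hK hD hs
  have h4 := dvd_discr K hK hD.ne hs hr (by rwa [dvd_neg]) (by rwa [dvd_neg])
  have h5 : b ≤ discr K := by
    refine hb ⟨K, inferInstance, inferInstance, hK, rfl, h3, ?_⟩
    refine exists_orderOf_eq hK hq h12 hn ?_ (s := s) ?_
    · intro h
      have := Nat.le_of_dvd hn h
      omega
    · rw [hs]
      push_cast
      ring
  obtain ⟨k, hk⟩ := h4
  have hr0 : (0 : ℤ) < r := by exact_mod_cast hr.pos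
  have hk0 : k ≤ -1 := by
    by_contra hc
    have : 0 ≤ k := by omega
    nlinarith
  have h6 : (b.natAbs : ℤ) < r := by exact_mod_cast hrb
  have h7 : discr K ≤ -r := by rw [hk]; nlinarith
  omega

/-- **Nagell's theorem (1922)**: for every `n ≥ 1` there are infinitely many imaginary quadratic
fields whose class number is divisible by `n`. -/
theorem nagell (n : ℕ) (hn : 0 < n) : {d : ℤ | ∃ (K : Type) (_ : Field K)
    (_ : NumberField K), finrank ℚ K = 2 ∧ discr K = d ∧ d < 0 ∧ n ∣ classNumber K}.Infinite := by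
  refine (nagell_orderOf n hn).mono ?_
  rintro d ⟨K, i1, i2, hK, hd, hd0, c, hc⟩
  refine ⟨K, i1, i2, hK, hd, hd0, ?_⟩
  rw [← hc, classNumber]
  exact orderOf_dvd_card

end Fermat.Agent.Cor.Nagell
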