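import Fermat.Agent.Corollaries.Nagell.Residue
import Fermat.Agent.Corollaries.GW.Rat

/-!
# The choice of `r` for the real quadratic fields `ℚ(√(r²ⁿ + 4))`

`exists_radicand`: for all `n ≥ 1` and `B` there is an odd number `r ≥ 2` such that
* for every prime `ℓ ∣ n` there is a prime `p ∣ r` modulo which `2` and `-2` are not `ℓ`-th powers;
* `rⁿ ≠ V_ℓ(t, -1)` for all odd primes `ℓ ∣ n` and all integers `t`;
* a prime `q > B` divides `r ^ (2 n) + 4` exactly once.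
-/

set_option autoImplicit false

namespace Fermat.Agent.Cor.Nagell

/-- For every prime `ℓ` there is an odd prime `p` modulo which `2` and `-2` are not `ℓ`-th powers. -/
theorem exists_nonresidue {ℓ : ℕ} (hℓ : ℓ.Prime) : ∃ p : ℕ, p.Prime ∧ p ≠ 2 ∧
    ∀ z : ZMod p, z ^ ℓ ≠ 2 ∧ z ^ ℓ ≠ -2 := by
  rcases hℓ.eq_two_or_odd' with rfl | hodd
  · -- `p = 5`
    refine ⟨5, by norm_num, by norm_num, ?_⟩
    decide
  · have h1 := (GW.ankeny_rogers hℓ.pos 2).out 1 3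
    have h2 : ¬ {p : ℕ | p.Prime ∧ ¬ ∃ x : ZMod p, x ^ ℓ = ((2 : ℤ) : ZMod p)}.Finite := by
      rw [h1]
      rintro (⟨b, hb⟩ | ⟨h8, -⟩)
      · have h3 : (2 : ℤ) ∣ b := Int.prime_two.dvd_of_dvd_pow (n := ℓ) ⟨1, by rw [hb]; ring⟩
        have h4 : (2 : ℤ) ^ 2 ∣ 2 := by
          calc (2 : ℤ) ^ 2 ∣ 2 ^ ℓ := pow_dvd_pow 2 hℓ.two_le
            _ ∣ b ^ ℓ := pow_dvd_pow_of_dvd h3 ℓ
            _ = 2 := hb
        norm_num at h4
      · have h3 : 2 ∣ ℓ := (by norm_num : 2 ∣ 8).trans h8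
        rw [Nat.odd_iff] at hodd
        omega
    obtain ⟨p, ⟨hp, hp2⟩, hpn⟩ := (Set.not_finite.mp h2).exists_notMem_finset {2}
    rw [Finset.mem_singleton] at hpn
    push_cast at hp2
    refine ⟨p, hp, hpn, fun z => ⟨fun hz => hp2 ⟨z, hz⟩, fun hz => hp2 ⟨-z, ?_⟩⟩⟩
    rw [hodd.neg_pow, hz, neg_neg]

/-- A sum `x ^ (2 n) + 4` is not divisible by a prime `p ≡ 3` modulo `4`, `p ∤ 2`. -/
theorem not_dvd_of_mod_four {p : ℕ} (hp : p.Prime) (h4 : p % 4 = 3) (x : ℤ) (n : ℕ) :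
    ¬ (p : ℤ) ∣ x ^ (2 * n) + 4 := by
  intro h
  have hpf : Fact p.Prime := ⟨hp⟩
  have h1 := (ZMod.intCast_zmod_eq_zero_iff_dvd _ p).mpr h
  push_cast at h1
  have h2 : (2 : ZMod p) ≠ 0 := by
    intro h0
    have h3 : ((2 : ℕ) : ZMod p) = 0 := by exact_mod_cast h0
    rw [ZMod.natCast_eq_zero_iff] at h3
    have := Nat.le_of_dvd (by norm_num) h3
    omega
  have h3 : IsSquare (-1 : ZMod p) := by
    refine ⟨(x : ZMod p) ^ n / 2, ?_⟩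
    field_simp
    rw [← pow_mul, mul_comm n 2]
    linear_combination -h1
  have h5 := (ZMod.exists_sq_eq_neg_one_iff (p := p)).mp h3
  omega

/-- The choice of `r`. -/
theorem exists_radicand (n : ℕ) (hn : 0 < n) (B : ℕ) : ∃ r : ℤ, Odd r ∧ 2 ≤ r ∧
    (∀ ℓ : ℕ, ℓ.Prime → ℓ ∣ n → ∃ p : ℕ, p.Prime ∧ (p : ℤ) ∣ r ∧
      ∀ z : ZMod p, z ^ ℓ ≠ 2 ∧ z ^ ℓ ≠ -2) ∧
    (∀ ℓ : ℕ, ℓ.Prime → ℓ ≠ 2 → ℓ ∣ n → ∀ t : ℤ, V t (-1) ℓ ≠ r ^ n) ∧
    ∃ q : ℕ, q.Prime ∧ B < q ∧ (q : ℤ) ∣ r ^ (2 * n) + 4 ∧ ¬ (q : ℤ) ^ 2 ∣ r ^ (2 * n) + 4 := by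
  classical
  -- the primes `p_ℓ`
  let f : ℕ → ℕ := fun ℓ => if h : ℓ.Prime then (exists_nonresidue h).choose else 1
  have hf : ∀ ℓ : ℕ, ℓ.Prime → (f ℓ).Prime ∧ f ℓ ≠ 2 ∧
      ∀ z : ZMod (f ℓ), z ^ ℓ ≠ 2 ∧ z ^ ℓ ≠ -2 := by
    intro ℓ hℓ
    have h1 : f ℓ = (exists_nonresidue hℓ).choose := dif_pos hℓ
    rw [h1]
    exact (exists_nonresidue hℓ).choose_spec
  -- `A` is odd, divisible by all `p_ℓ` and by all odd numbers up to `2 (B + n) + 3`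
  set A₁ : ℕ := ∏ ℓ ∈ n.primeFactors, f ℓ with hA₁
  set A₂ : ℕ := ∏ i ∈ Finset.range (B + n + 2), (2 * i + 1) with hA₂
  have hA₁odd : Odd A₁ := by
    rw [hA₁]
    refine Finset.prod_induction _ Odd (fun a b => Odd.mul) odd_one ?_
    intro ℓ hℓ
    have h1 := hf ℓ (Nat.prime_of_mem_primeFactors hℓ)
    exact h1.1.odd_of_ne_two h1.2.1
  have hA₂odd : Odd A₂ := by
    rw [hA₂]
    exact Finset.prod_induction _ Odd (fun a b => Odd.mul) odd_one (fun i _ => ⟨i, rfl⟩)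
  set A : ℕ := A₁ * A₂ with hA
  have hAodd : Odd A := hA₁odd.mul hA₂odd
  have hA0 : 0 < A := hAodd.pos
  have h3A : 3 ∣ A := by
    refine Dvd.dvd.mul_left ?_ A₁
    exact Finset.dvd_prod_of_mem (fun i => 2 * i + 1) (Finset.mem_range.mpr (by omega : 1 < B + n + 2))
  -- the prime `p₀`
  obtain ⟨p₀, r₀, hp₀, hp₀B, hp₀4, hres⟩ := exists_residue hn (A + 2)
  have hcop : IsCoprime (2 * (A : ℤ)) (p₀ : ℤ) := by
    have h1 : Nat.Coprime (2 * A) p₀ := by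
      rw [Nat.coprime_comm, Nat.Prime.coprime_iff_not_dvd hp₀]
      intro h
      rcases (Nat.Prime.dvd_mul hp₀).mp h with h2 | h2
      · have := Nat.le_of_dvd (by norm_num) h2
        omega
      · have := Nat.le_of_dvd hA0 h2
        omega
    have h2 := Nat.isCoprime_iff_coprime.mpr h1
    push_cast at h2
    exact h2
  -- `x ≡ A` modulo `2 A`, `x ≡ r₀` modulo `p₀`
  obtain ⟨a, b, hab⟩ := hcop
  set x₀ : ℤ := A * (b * p₀) + r₀ * (a * (2 * A)) with hx₀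
  have hx₀A : (2 * A : ℤ) ∣ x₀ - A := by
    refine ⟨(r₀ - A) * a, ?_⟩
    rw [hx₀]
    linear_combination (A : ℤ) * hab
  have hx₀p : (p₀ : ℤ) ∣ x₀ - r₀ := by
    refine ⟨(A - r₀) * b, ?_⟩
    rw [hx₀]
    linear_combination r₀ * hab
  set M : ℤ := 2 * A * p₀ with hM
  have hp₀pos : (0 : ℤ) < p₀ := by exact_mod_cast hp₀.pos
  have hApos : (0 : ℤ) < A := by exact_mod_cast hA0
  have hMpos : 0 < M := by rw [hM]; positivity
  -- a positive `x`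
  set x : ℤ := x₀ + M * (|x₀| + 2) with hx
  have hxM : M ∣ x - x₀ := ⟨|x₀| + 2, by rw [hx]; ring⟩
  have hx2 : 2 ≤ x := by
    have h1 : -|x₀| ≤ x₀ := neg_abs_le x₀
    have h2 : 1 ≤ M := hMpos
    have h3 : (0 : ℤ) ≤ |x₀| + 2 := by positivity
    rw [hx]
    nlinarith
  -- everything except the last condition holds for all `y ≡ x₀` modulo `M`
  have hgood : ∀ y : ℤ, M ∣ y - x₀ → Odd y ∧ (A : ℤ) ∣ y ∧ (p₀ : ℤ) ∣ y - r₀ := by
    intro y hy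
    have h1 : (2 * A : ℤ) ∣ y - A := by
      have h2 : (2 * A : ℤ) ∣ y - x₀ := (Dvd.intro _ rfl : (2 * A : ℤ) ∣ M).trans hy
      have h3 : y - A = (y - x₀) + (x₀ - A) := by ring
      rw [h3]
      exact dvd_add h2 hx₀A
    refine ⟨?_, ?_, ?_⟩
    · obtain ⟨c, hc⟩ := h1
      obtain ⟨d, hd⟩ := hAodd
      refine ⟨A * c + d, ?_⟩
      have h2 : (A : ℤ) = 2 * d + 1 := by exact_mod_cast hd
      linear_combination hc + h2
    · obtain ⟨c, hc⟩ := h1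
      exact ⟨2 * c + 1, by linear_combination hc⟩
    · have h2 : (p₀ : ℤ) ∣ y - x₀ := (Dvd.intro_left _ rfl : (p₀ : ℤ) ∣ M).trans hy
      have h3 : y - r₀ = (y - x₀) + (x₀ - r₀) := by ring
      rw [h3]
      exact dvd_add h2 hx₀p
  have hfin : ∀ y : ℤ, M ∣ y - x₀ → 2 ≤ y →
      (∃ q : ℕ, q.Prime ∧ B < q ∧ (q : ℤ) ∣ y ^ (2 * n) + 4 ∧ ¬ (q : ℤ) ^ 2 ∣ y ^ (2 * n) + 4) →
      ∃ r : ℤ, Odd r ∧ 2 ≤ r ∧
        (∀ ℓ : ℕ, ℓ.Prime → ℓ ∣ n → ∃ p : ℕ, p.Prime ∧ (p : ℤ) ∣ r ∧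
          ∀ z : ZMod p, z ^ ℓ ≠ 2 ∧ z ^ ℓ ≠ -2) ∧
        (∀ ℓ : ℕ, ℓ.Prime → ℓ ≠ 2 → ℓ ∣ n → ∀ t : ℤ, V t (-1) ℓ ≠ r ^ n) ∧
        ∃ q : ℕ, q.Prime ∧ B < q ∧ (q : ℤ) ∣ r ^ (2 * n) + 4 ∧
          ¬ (q : ℤ) ^ 2 ∣ r ^ (2 * n) + 4 := by
    intro y hy hy2 hq
    obtain ⟨h1, h2, h3⟩ := hgood y hy
    refine ⟨y, h1, hy2, ?_, ?_, hq⟩
    · intro ℓ hℓ hℓn
      refine ⟨f ℓ, (hf ℓ hℓ).1, ?_, (hf ℓ hℓ).2.2⟩
      have h4 : f ℓ ∣ A₁ := Finset.dvd_prod_of_mem f (Nat.mem_primeFactors.mpr ⟨hℓ, hℓn, hn.ne'⟩)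
      have h5 : f ℓ ∣ A := h4.mul_right A₂
      exact (Int.natCast_dvd_natCast.mpr h5).trans h2
    · intro ℓ hℓ hℓ2 hℓn t
      exact hres y h3 ℓ hℓ hℓ2 hℓn t
  -- a prime factor `q` of `x ^ (2 n) + 4`
  obtain ⟨hxodd, hxA, hxp⟩ := hgood x hxM
  have hN : (x ^ (2 * n) + 4).natAbs ≠ 1 := by
    have h1 : 0 ≤ x ^ (2 * n) := by positivity
    omega
  obtain ⟨q, hq, hqN⟩ := Nat.exists_prime_and_dvd hN
  have hqN' : (q : ℤ) ∣ x ^ (2 * n) + 4 := Int.natCast_dvd.mpr hqN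
  have hq2 : q ≠ 2 := by
    rintro rfl
    have h1 : Odd (x ^ (2 * n) + 4) := hxodd.pow.add_even (by decide)
    have h2 : ¬ (2 : ℤ) ∣ x ^ (2 * n) + 4 := by
      rw [← even_iff_two_dvd, Int.not_even_iff_odd]
      exact h1
    exact h2 (by exact_mod_cast hqN')
  have hqx : ¬ (q : ℤ) ∣ x := by
    intro h
    have h1 : (q : ℤ) ∣ 4 := by
      have h2 : (4 : ℤ) = (x ^ (2 * n) + 4) - x ^ (2 * n) := by ring
      rw [h2]
      exact dvd_sub hqN' (dvd_pow h (by omega))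
    have h3 : q ∣ 4 := by exact_mod_cast h1
    have h4 : q ∣ 2 := hq.dvd_of_dvd_pow (n := 2) (by norm_num; exact h3)
    exact hq2 ((Nat.prime_dvd_prime_iff_eq hq Nat.prime_two).mp h4)
  have hqA : ¬ q ∣ A := fun h => hqx ((Int.natCast_dvd_natCast.mpr h).trans hxA)
  have hqB : 2 * (B + n) + 3 < q := by
    by_contra hc
    apply hqA
    refine Dvd.dvd.mul_left ?_ A₁
    obtain ⟨i, hi⟩ := hq.odd_of_ne_two hq2
    rw [hi]
    exact Finset.dvd_prod_of_mem (fun i => 2 * i + 1) (Finset.mem_range.mpr (by omega))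
  by_cases hc : (q : ℤ) ^ 2 ∣ x ^ (2 * n) + 4
  · -- replace `x` by `x + M q`
    refine hfin (x + M * q) ?_ ?_ ⟨q, hq, by omega, ?_, ?_⟩
    · have h1 : x + M * q - x₀ = (x - x₀) + M * q := by ring
      rw [h1]
      exact dvd_add hxM (dvd_mul_right _ _)
    · have : 0 ≤ M * (q : ℤ) := by positivity
      linarith
    all_goals
      obtain ⟨k, hk⟩ := Polynomial.powAddExpansion x (M * q) (2 * n)
      obtain ⟨l, hl⟩ := hc
      have h1 : (x + M * q) ^ (2 * n) + 4 = q ^ 2 * (l + k * M ^ 2) +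
          q * (2 * n * x ^ (2 * n - 1) * M) := by
        rw [hk]
        push_cast
        linear_combination hl
      rw [h1]
    · exact dvd_add ((dvd_pow_self _ two_ne_zero).mul_right _) (dvd_mul_right _ _)
    · intro h
      have h2 := (dvd_add_right (dvd_mul_right _ _)).mp h
      have hq0 : (q : ℤ) ≠ 0 := by exact_mod_cast hq.ne_zero
      rw [sq] at h2
      have h3 := (mul_dvd_mul_iff_left hq0).mp h2
      have hqp : Prime (q : ℤ) := Nat.prime_iff_prime_int.mp hq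
      rcases hqp.dvd_or_dvd h3 with h4 | h4
      · rcases hqp.dvd_or_dvd h4 with h5 | h5
        · rcases hqp.dvd_or_dvd h5 with h6 | h6
          · have h7 : q ∣ 2 := by exact_mod_cast h6
            exact hq2 ((Nat.prime_dvd_prime_iff_eq hq Nat.prime_two).mp h7)
          · have h7 : q ∣ n := by exact_mod_cast h6
            have := Nat.le_of_dvd hn h7
            omega
        · exact hqx (hqp.dvd_of_dvd_pow h5)
      · rw [hM] at h4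
        rcases hqp.dvd_or_dvd h4 with h5 | h5
        · rcases hqp.dvd_or_dvd h5 with h6 | h6
          · have h7 : q ∣ 2 := by exact_mod_cast h6
            exact hq2 ((Nat.prime_dvd_prime_iff_eq hq Nat.prime_two).mp h7)
          · exact hqA (by exact_mod_cast h6)
        · have h6 : q ∣ p₀ := by exact_mod_cast h5
          have h7 := (Nat.prime_dvd_prime_iff_eq hq hp₀).mp h6
          rw [h7] at hqN'
          exact not_dvd_of_mod_four hp₀ hp₀4 x n hqN'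
  · exact hfin x hxM hx2 ⟨q, hq, by omega, hqN', hc⟩

end Fermat.Agent.Cor.Nagell
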