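import Fermat.Agent.Corollaries.Nagell.QuadReal
import Fermat.Agent.Corollaries.Nagell.PrimesReal
import Fermat.Agent.Corollaries.Nagell.Main

/-!
# Weinberger's theorem (Yamamoto 1970, Weinberger 1973)

For every `n ≥ 1` there are infinitely many real quadratic fields whose class number is divisible by
`n` (`weinberger`), and even infinitely many whose class group has an element of order `n`
(`weinberger_orderOf`). The fields are `ℚ(√(r²ⁿ + 4))`.
-/

set_option autoImplicit false

namespace Fermat.Agent.Cor.Nagell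

open NumberField Module Polynomial ComplexConjugate

/-- The field `ℚ(√D) ⊂ ℚ̄`, `D` not a square. -/
theorem exists_quadratic_of {D : ℤ} (hD : ∀ c : ℚ, c ^ 2 ≠ D) :
    ∃ (K : IntermediateField ℚ (AlgebraicClosure ℚ)) (s : K), finrank ℚ K = 2 ∧
      s ^ 2 = (D : K) := by
  obtain ⟨s, hs⟩ := IsAlgClosed.exists_pow_nat_eq ((D : AlgebraicClosure ℚ)) two_pos
  have hirr : Irreducible (X ^ 2 - C (D : ℚ)) :=
    X_pow_sub_C_irreducible_of_prime Nat.prime_two hD
  have hmin : X ^ 2 - C (D : ℚ) = minpoly ℚ s := by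
    refine minpoly.eq_of_irreducible_of_monic hirr ?_ (monic_X_pow_sub_C _ two_ne_zero)
    simp [hs]
  have hint : IsIntegral ℚ s := Algebra.IsIntegral.isIntegral s
  refine ⟨IntermediateField.adjoin ℚ {s}, IntermediateField.AdjoinSimple.gen ℚ s, ?_, ?_⟩
  · rw [IntermediateField.adjoin.finrank hint, ← hmin, natDegree_X_pow_sub_C]
  · apply Subtype.ext
    push_cast
    rw [IntermediateField.AdjoinSimple.coe_gen, hs]

/-- A quadratic field which contains a square root of a positive integer is totally real. -/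
theorem isTotallyReal_of {K : Type*} [Field K] [NumberField K] (hK : finrank ℚ K = 2) {D : ℤ}
    (hD : ∀ c : ℚ, c ^ 2 ≠ D) (hD0 : 0 < D) {s : K} (hs : s ^ 2 = (D : K)) :
    IsTotallyReal K := by
  refine ⟨fun v => ?_⟩
  rw [InfinitePlace.isReal_iff, ComplexEmbedding.isReal_iff]
  set φ := v.embedding with hφ
  have h1 : (φ s) ^ 2 = (D : ℂ) := by rw [← map_pow, hs, map_intCast]
  have h2 : (conj (φ s)) ^ 2 = (D : ℂ) := by rw [← map_pow, h1, map_intCast]
  have h3 : conj (φ s) = φ s := by
    have h4 : (conj (φ s) - φ s) * (conj (φ s) + φ s) = 0 := by linear_combination h2 - h1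
    rcases mul_eq_zero.mp h4 with h5 | h5
    · exact sub_eq_zero.mp h5
    · exfalso
      have h6 : φ s * conj (φ s) = -(D : ℂ) := by
        have h7 : conj (φ s) = -φ s := by linear_combination h5
        rw [h7]
        linear_combination -h1
      rw [Complex.mul_conj] at h6
      have h7 : Complex.normSq (φ s) = -(D : ℝ) := by exact_mod_cast h6
      have h8 := Complex.normSq_nonneg (φ s)
      have h9 : (0 : ℝ) < D := by exact_mod_cast hD0
      linarith
  ext x
  obtain ⟨a, b, hx⟩ := exists_coord_of hK hD hs x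
  rw [ComplexEmbedding.conjugate_coe_eq, hx, map_add, map_mul, map_ratCast, map_ratCast, map_add,
    map_mul, h3]
  simp

/-- The discriminant of a totally real quadratic field is positive. -/
theorem discr_pos {K : Type*} [Field K] [NumberField K] [IsTotallyReal K] : 0 < discr K := by
  have h3 : InfinitePlace.nrComplexPlaces K = 0 := nrComplexPlaces_eq_zero_iff.mpr inferInstance
  have h4 := sign_discr K
  rw [h3, pow_zero] at h4
  exact Int.sign_eq_one_iff_pos.mp h4

/-- **Weinberger's theorem, with an element of order `n`**: for every `n ≥ 1` the set of the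
discriminants of the real quadratic fields whose class group has an element of order `n` is
infinite. -/
theorem weinberger_orderOf (n : ℕ) (hn : 0 < n) : {d : ℤ | ∃ (K : Type) (_ : Field K)
    (_ : NumberField K), finrank ℚ K = 2 ∧ discr K = d ∧ 0 < d ∧
      ∃ c : ClassGroup (𝓞 K), orderOf c = n}.Infinite := by
  by_contra hfin
  rw [Set.not_infinite] at hfin
  obtain ⟨b, hb⟩ := hfin.bddAbove
  obtain ⟨r, hr, hr2, hpr, hV, q, hq, hqb, h1, h2⟩ := exists_radicand n hn b.natAbs
  have hrn : 2 ≤ r ^ n := by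
    calc (2 : ℤ) = 2 ^ 1 := by norm_num
      _ ≤ 2 ^ n := pow_le_pow_right₀ (by norm_num) hn
      _ ≤ r ^ n := pow_le_pow_left₀ (by norm_num) hr2 n
  have hD : ∀ c : ℚ, c ^ 2 ≠ ((r ^ (2 * n) + 4 : ℤ) : ℚ) := by
    intro c hc
    obtain ⟨z, hz⟩ := exists_int_sq hc
    have hz' : |z| ^ 2 = (r ^ n) ^ 2 + 4 := by rw [sq_abs, hz, ← pow_mul, mul_comm 2 n]
    set t : ℤ := r ^ n
    have h0 : 0 ≤ |z| := abs_nonneg z
    have h1 : t < |z| := by nlinarith
    have h3 : |z| < t + 2 := by nlinarith
    have h4 : |z| = t + 1 := by omega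
    rw [h4] at hz'
    have h5 : 2 * t = 3 := by linarith [hz', (by ring : (t + 1) ^ 2 = t ^ 2 + 2 * t + 1)]
    omega
  have hD0 : 0 < r ^ (2 * n) + 4 := by
    have : 0 ≤ r ^ (2 * n) := by positivity
    omega
  obtain ⟨K, s, hK, hs⟩ := exists_quadratic_of hD
  have : FiniteDimensional ℚ K := Module.finite_of_finrank_pos (by omega)
  have : NumberField K := ⟨⟩
  have : IsTotallyReal K := isTotallyReal_of hK hD hD0 hs
  have h3 : 0 < discr K := discr_pos
  have h4 := dvd_discr K hK hD0.ne' hs hq h1 h2
  have h5 : discr K ≤ b := by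
    refine hb ⟨K, inferInstance, inferInstance, hK, rfl, h3, ?_⟩
    refine exists_orderOf_eq_real hK hn hr hr2 hpr hV (s := s) ?_
    rw [hs]
    push_cast
    rfl
  have h6 : (q : ℤ) ≤ discr K := Int.le_of_dvd h3 h4
  have h7 : (b.natAbs : ℤ) < q := by exact_mod_cast hqb
  omega

/-- **Weinberger's theorem**: for every `n ≥ 1` there are infinitely many real quadratic fields
whose class number is divisible by `n`. -/
theorem weinberger (n : ℕ) (hn : 0 < n) : {d : ℤ | ∃ (K : Type) (_ : Field K)
    (_ : NumberField K), finrank ℚ K = 2 ∧ discr K = d ∧ 0 < d ∧ n ∣ classNumber K}.Infinite := by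
  refine (weinberger_orderOf n hn).mono ?_
  rintro d ⟨K, i1, i2, hK, hd, hd0, c, hc⟩
  refine ⟨K, i1, i2, hK, hd, hd0, ?_⟩
  rw [← hc, classNumber]
  exact orderOf_dvd_card

end Fermat.Agent.Cor.Nagell
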