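import Fermat.Agent.Corollaries.CFTP.ClassField
import Fermat.Agent.Corollaries.InvGal.Gal
import Fermat.Agent.Corollaries.Nagell.MainReal
import Fermat.Agent.Mazur.Radical
import Mathlib.GroupTheory.SpecificGroups.Dihedral
import Mathlib.GroupTheory.IndexNormal

/-!
# Unramified extensions of quadratic fields and dihedral extensions of `ℚ`

`K` a quadratic field, `p` a prime which divides the class number of `K`.

* `conj_mul_eq_one`: an everywhere unramified character `ψ` of `G_K` of order `p` satisfies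
  `ψ (σ⁻¹ g σ) = (ψ g)⁻¹` for `σ ∉ G_K`: the transfer of `ψ` is an everywhere unramified character
  of `Gal(ℚ̄/ℚ)`, hence trivial by Minkowski's theorem;
* `exists_dihedral`: if `p` is odd, then there is a field `L ⊃ K` which is unramified over `K` at
  all finite places and Galois over `ℚ` with group the dihedral group of order `2p`;
* `infinite_dihedral_imaginary`, `infinite_dihedral_real`: for every odd prime `p` there are
  infinitely many imaginary and infinitely many real quadratic fields `K` with such an extension;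
* `infinite_unramified_imaginary`, `infinite_unramified_real`: for every prime `p` there are
  infinitely many imaginary quadratic fields with a Galois extension of degree `p` which is
  unramified at all finite places, and infinitely many real ones if `p` is odd.
-/

set_option autoImplicit false

namespace Fermat.Agent.Cor.Nagell

open NumberField Module IsDedekindDomain
open Fermat.Agent.LT Fermat.Agent.LT.Tower.Fr
open Fermat.Agent.Cor.Diff (GK)
open Fermat.Agent.Cor.CFTP (C Lev)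
open Fermat.Agent.LT.NV (edeg)
open scoped Pointwise

/-! ### Groups with a subgroup of index two -/

section Group

variable {Γ A : Type*} [Group Γ] [CommGroup A] {H : Subgroup Γ}

open Classical in
/-- a homomorphism of a subgroup, extended by `1` -/
noncomputable def ext1 (ψ : H →* A) (g : Γ) : A := if h : g ∈ H then ψ ⟨g, h⟩ else 1

lemma ext1_mk (ψ : H →* A) {g : Γ} (h : g ∈ H) : ext1 ψ g = ψ ⟨g, h⟩ := dif_pos h

lemma ext1_mul (ψ : H →* A) {g h : Γ} (hg : g ∈ H) (hh : h ∈ H) :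
    ext1 ψ (g * h) = ext1 ψ g * ext1 ψ h := by
  rw [ext1_mk ψ hg, ext1_mk ψ hh, ext1_mk ψ (H.mul_mem hg hh), ← map_mul]
  rfl

lemma ext1_one (ψ : H →* A) : ext1 ψ 1 = 1 := by
  rw [ext1_mk ψ H.one_mem]
  exact map_one ψ

/-- The transfer to a subgroup of index two. -/
theorem exists_transfer (hH : H.index = 2) (ψ : H →* A) {σ : Γ} (hσ : σ ∉ H) :
    ∃ T : Γ →* A, (∀ g ∈ H, T g = ext1 ψ g * ext1 ψ (σ⁻¹ * g * σ)) ∧
      ∀ g, g ∉ H → T g = ext1 ψ (g * g) := by
  classical
  have hm : ∀ a b : Γ, a * b ∈ H ↔ (a ∈ H ↔ b ∈ H) := fun a b =>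
    Subgroup.mul_mem_iff_of_index_two hH
  have hσ' : σ⁻¹ ∉ H := fun h => hσ (inv_mem_iff.mp h)
  let f : Γ → A := fun g => if g ∈ H then ext1 ψ g * ext1 ψ (σ⁻¹ * g * σ)
    else ext1 ψ (σ⁻¹ * g) * ext1 ψ (g * σ)
  have hf1 : ∀ g ∈ H, f g = ext1 ψ g * ext1 ψ (σ⁻¹ * g * σ) := fun g hg => if_pos hg
  have hf2 : ∀ g, g ∉ H → f g = ext1 ψ (σ⁻¹ * g) * ext1 ψ (g * σ) := fun g hg => if_neg hg
  have hc : ∀ g ∈ H, σ⁻¹ * g * σ ∈ H := fun g hg => by simp [hm, hg, hσ]
  have hl : ∀ g, g ∉ H → σ⁻¹ * g ∈ H := fun g hg => by simp [hm, hg, hσ]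
  have hr : ∀ g, g ∉ H → g * σ ∈ H := fun g hg => by simp [hm, hg, hσ]
  have hmul : ∀ g h, f (g * h) = f g * f h := by
    intro g h
    by_cases hg : g ∈ H <;> by_cases hh : h ∈ H
    · rw [hf1 _ (H.mul_mem hg hh), hf1 _ hg, hf1 _ hh, ext1_mul ψ hg hh,
        show σ⁻¹ * (g * h) * σ = (σ⁻¹ * g * σ) * (σ⁻¹ * h * σ) by group,
        ext1_mul ψ (hc g hg) (hc h hh)]
      exact mul_mul_mul_comm _ _ _ _
    · have hgh : g * h ∉ H := by simp [hm, hg, hh]
      rw [hf2 _ hgh, hf1 _ hg, hf2 _ hh,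
        show σ⁻¹ * (g * h) = (σ⁻¹ * g * σ) * (σ⁻¹ * h) by group,
        show g * h * σ = g * (h * σ) by group, ext1_mul ψ (hc g hg) (hl h hh),
        ext1_mul ψ hg (hr h hh)]
      rw [mul_mul_mul_comm, mul_comm (ext1 ψ (σ⁻¹ * g * σ))]
    · have hgh : g * h ∉ H := by simp [hm, hg, hh]
      rw [hf2 _ hgh, hf2 _ hg, hf1 _ hh, show σ⁻¹ * (g * h) = (σ⁻¹ * g) * h by group,
        show g * h * σ = (g * σ) * (σ⁻¹ * h * σ) by group, ext1_mul ψ (hl g hg) hh,
        ext1_mul ψ (hr g hg) (hc h hh)]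
      exact mul_mul_mul_comm _ _ _ _
    · have hgh : g * h ∈ H := by simp [hm, hg, hh]
      rw [hf1 _ hgh, hf2 _ hg, hf2 _ hh, show g * h = (g * σ) * (σ⁻¹ * h) by group,
        show σ⁻¹ * (g * σ * (σ⁻¹ * h)) * σ = (σ⁻¹ * g) * (h * σ) by group,
        ext1_mul ψ (hr g hg) (hl h hh), ext1_mul ψ (hl g hg) (hr h hh)]
      rw [mul_mul_mul_comm, mul_comm (ext1 ψ (g * σ))]
  refine ⟨MonoidHom.ofMapMulInv f fun a b => ?_, fun g hg => hf1 g hg, fun g hg => ?_⟩
  · have h1 : f 1 = 1 := by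
      rw [hf1 1 H.one_mem, mul_one, inv_mul_cancel, ext1_one, mul_one]
    rw [hmul]
    congr 1
    rw [eq_comm, inv_eq_iff_mul_eq_one, ← hmul, mul_inv_cancel, h1]
  · change f g = _
    rw [hf2 g hg, mul_comm, ← ext1_mul ψ (hr g hg) (hl g hg)]
    congr 1
    group

/-- **The dihedral representation**: if `H` is of index two and conjugation by `σ ∉ H` inverts the
values of `ψ : H → ZMod n`, `n` odd, then `ψ` extends to a homomorphism to the dihedral group. -/
theorem exists_dihedral_hom {n : ℕ} (hn : Odd n) (hH : H.index = 2)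
    (ψ : H →* Multiplicative (ZMod n)) {σ : Γ} (hσ : σ ∉ H)
    (hψ : ∀ g ∈ H, ext1 ψ g * ext1 ψ (σ⁻¹ * g * σ) = 1) :
    ∃ ρ : Γ →* DihedralGroup n, (∀ g : H, ρ g = DihedralGroup.r (ψ g).toAdd) ∧
      (∀ g, g ∉ H → ∃ a, ρ g = DihedralGroup.sr a) ∧ ρ σ = DihedralGroup.sr 0 := by
  classical
  have hm : ∀ a b : Γ, a * b ∈ H ↔ (a ∈ H ↔ b ∈ H) := fun a b =>
    Subgroup.mul_mem_iff_of_index_two hH
  let u : Γ → ZMod n := fun g => (ext1 ψ g).toAdd
  have hu : ∀ g h, g ∈ H → h ∈ H → u (g * h) = u g + u h := fun g h hg hh => by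
    simp only [u]
    rw [ext1_mul ψ hg hh, toAdd_mul]
  have hc : ∀ g ∈ H, σ⁻¹ * g * σ ∈ H := fun g hg => by simp [hm, hg, hσ]
  have hc' : ∀ g ∈ H, σ * g * σ⁻¹ ∈ H := fun g hg => by simp [hm, hg, hσ]
  have hl : ∀ g, g ∉ H → σ⁻¹ * g ∈ H := fun g hg => by simp [hm, hg, hσ]
  have hui : ∀ g ∈ H, u (σ⁻¹ * g * σ) = - u g := by
    intro g hg
    have h1 := congrArg Multiplicative.toAdd (hψ g hg)
    rw [toAdd_mul, toAdd_one] at h1
    exact (neg_eq_of_add_eq_zero_right h1).symm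
  have hui' : ∀ g ∈ H, u (σ * g * σ⁻¹) = - u g := by
    intro g hg
    have h1 := hui _ (hc' g hg)
    rw [show σ⁻¹ * (σ * g * σ⁻¹) * σ = g by group] at h1
    rw [h1, neg_neg]
  have hσσ : σ * σ ∈ H := by simp [hm]
  have h0 : u (σ * σ) = 0 := by
    have h1 := hui _ hσσ
    rw [show σ⁻¹ * (σ * σ) * σ = σ * σ by group] at h1
    have h2 : (2 : ZMod n) * u (σ * σ) = 0 := by linear_combination h1
    have h3 : IsUnit (2 : ZMod n) := by
      have := (ZMod.isUnit_iff_coprime 2 n).mpr ((Nat.coprime_two_left).mpr hn)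
      exact_mod_cast this
    exact h3.mul_right_eq_zero.mp h2
  let f : Γ → DihedralGroup n := fun g => if g ∈ H then DihedralGroup.r (u g)
    else DihedralGroup.sr (u (σ⁻¹ * g))
  have hf1 : ∀ g ∈ H, f g = DihedralGroup.r (u g) := fun g hg => if_pos hg
  have hf2 : ∀ g, g ∉ H → f g = DihedralGroup.sr (u (σ⁻¹ * g)) := fun g hg => if_neg hg
  have hmul : ∀ g h, f (g * h) = f g * f h := by
    intro g h
    by_cases hg : g ∈ H <;> by_cases hh : h ∈ H
    · rw [hf1 _ (H.mul_mem hg hh), hf1 _ hg, hf1 _ hh, hu g h hg hh, DihedralGroup.r_mul_r]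
    · have hgh : g * h ∉ H := by simp [hm, hg, hh]
      rw [hf2 _ hgh, hf1 _ hg, hf2 _ hh, DihedralGroup.r_mul_sr,
        show σ⁻¹ * (g * h) = (σ⁻¹ * g * σ) * (σ⁻¹ * h) by group, hu _ _ (hc g hg) (hl h hh),
        hui g hg]
      congr 1
      ring
    · have hgh : g * h ∉ H := by simp [hm, hg, hh]
      rw [hf2 _ hgh, hf2 _ hg, hf1 _ hh, DihedralGroup.sr_mul_r,
        show σ⁻¹ * (g * h) = (σ⁻¹ * g) * h by group, hu _ _ (hl g hg) hh]
    · have hgh : g * h ∈ H := by simp [hm, hg, hh]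
      rw [hf1 _ hgh, hf2 _ hg, hf2 _ hh, DihedralGroup.sr_mul_sr,
        show g * h = (σ * (σ⁻¹ * g) * σ⁻¹) * ((σ * σ) * (σ⁻¹ * h)) by group,
        hu _ _ (hc' _ (hl g hg)) (H.mul_mem hσσ (hl h hh)), hu _ _ hσσ (hl h hh), h0,
        hui' _ (hl g hg)]
      congr 1
      ring
  have h1 : f 1 = 1 := by
    rw [hf1 1 H.one_mem]
    simp only [u]
    rw [ext1_one, toAdd_one]
    rfl
  refine ⟨{ toFun := f, map_one' := h1, map_mul' := hmul }, fun g => ?_, fun g hg =>
    ⟨_, hf2 g hg⟩, ?_⟩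
  · change f g = _
    rw [hf1 _ g.2]
    simp only [u]
    rw [ext1_mk ψ g.2]
  · change f σ = _
    rw [hf2 σ hσ]
    simp only [u]
    rw [inv_mul_cancel, ext1_one, toAdd_one]

end Group

/-! ### Unramified characters of quadratic fields -/

section Quadratic

local notation "GQ" => (AlgebraicClosure ℚ ≃ₐ[ℚ] AlgebraicClosure ℚ)

variable {p : ℕ} [hp : Fact p.Prime] {K : Type} [Field K] [NumberField K]
  {i : K →+* AlgebraicClosure ℚ}

omit [NumberField K] in
lemma GK_eq_fixingSubgroup [CharZero K] (i : K →+* AlgebraicClosure ℚ) :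
    GK i = i.toRatAlgHom.fieldRange.fixingSubgroup := by
  ext g
  rw [IntermediateField.mem_fixingSubgroup_iff]
  constructor
  · rintro h _ ⟨x, rfl⟩
    exact h x
  · intro h x
    exact h _ ⟨x, rfl⟩

lemma index_GK (i : K →+* AlgebraicClosure ℚ) : (GK i).index = finrank ℚ K := by
  have h1 : FiniteDimensional ℚ i.toRatAlgHom.fieldRange :=
    LinearEquiv.finiteDimensional (AlgEquiv.ofInjectiveField i.toRatAlgHom).toLinearEquiv
  rw [GK_eq_fixingSubgroup, ← IntermediateField.finrank_eq_fixingSubgroup_index]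
  exact (AlgEquiv.ofInjectiveField i.toRatAlgHom).toLinearEquiv.finrank_eq.symm

/-- **Everywhere unramified characters of a quadratic field are inverted by conjugation.** -/
theorem conj_mul_eq_one (hK : finrank ℚ K = 2) (ψ : GK i →* C p) (lψ : Lev ψ)
    (hunr : ∀ (v : HeightOneSpectrum (𝓞 K)) (A : ValuationSubring (AlgebraicClosure ℚ)),
      Over i A v → ∀ g : GK i, g.1 ∈ A.inertiaSubgroupIn ℚ → ψ g = 1)
    {σ : GQ} (hσ : σ ∉ GK i) {g : GQ} (hg : g ∈ GK i) :
    ext1 ψ g * ext1 ψ (σ⁻¹ * g * σ) = 1 := by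
  have hH : (GK i).index = 2 := (index_GK i).trans hK
  have hm : ∀ a b : GQ, a * b ∈ GK i ↔ (a ∈ GK i ↔ b ∈ GK i) := fun a b =>
    Subgroup.mul_mem_iff_of_index_two hH
  obtain ⟨T, hT1, hT2⟩ := exists_transfer hH ψ hσ
  rw [← hT1 g hg]
  have hI : ∀ ℓ : ℕ, ℓ.Prime → ∀ A : ValuationSubring (AlgebraicClosure ℚ),
      A.LiesOverPrime ℓ → ∀ τ ∈ A.inertiaSubgroupIn ℚ, ext1 ψ τ = 1 := by
    intro ℓ hℓ A hA τ hτ
    by_cases hτK : τ ∈ GK i
    · obtain ⟨v, hv⟩ := exists_over_of_liesOver i hℓ hA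
      rw [ext1_mk ψ hτK]
      exact hunr v A hv ⟨τ, hτK⟩ hτ
    · exact dif_neg hτK
  refine Fermat.Agent.Minkowski.hom_eq_one T ?_ (fun ℓ hℓ A hA τ hτ => ?_) g
  · -- continuity
    obtain ⟨L, hL, hLψ⟩ := lψ
    have hfr : FiniteDimensional ℚ i.toRatAlgHom.fieldRange :=
      LinearEquiv.finiteDimensional (AlgEquiv.ofInjectiveField i.toRatAlgHom).toLinearEquiv
    have hfd : FiniteDimensional ℚ (i.toRatAlgHom.fieldRange ⊔ L :
        IntermediateField ℚ (AlgebraicClosure ℚ)) := IntermediateField.finiteDimensional_sup _ _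
    let U : Subgroup GQ := (i.toRatAlgHom.fieldRange ⊔ L).fixingSubgroup
    have hU : IsOpen (U : Set GQ) := IntermediateField.fixingSubgroup_isOpen _
    have hUK : ∀ τ ∈ U, τ ∈ GK i := by
      intro τ hτ x
      exact (IntermediateField.mem_fixingSubgroup_iff _ _).mp hτ _
        ((le_sup_left : i.toRatAlgHom.fieldRange ≤ i.toRatAlgHom.fieldRange ⊔ L) ⟨x, rfl⟩)
    have hUψ : ∀ τ ∈ U, ext1 ψ τ = 1 := by
      intro τ hτ
      rw [ext1_mk ψ (hUK τ hτ)]
      exact hLψ _ fun x hx => (IntermediateField.mem_fixingSubgroup_iff _ _).mp hτ _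
        ((le_sup_right : L ≤ i.toRatAlgHom.fieldRange ⊔ L) hx)
    refine Subgroup.isOpen_of_mem_nhds _ (g := 1) ?_
    have h1 : (U : Set GQ) ∈ nhds (1 : GQ) := hU.mem_nhds U.one_mem
    have h2 : (fun τ : GQ => σ⁻¹ * τ * σ) ⁻¹' (U : Set GQ) ∈ nhds (1 : GQ) := by
      refine ContinuousAt.preimage_mem_nhds (by fun_prop) ?_
      rw [mul_one, inv_mul_cancel]
      exact h1
    filter_upwards [h1, h2] with τ hτ hτ'
    change T τ = 1
    rw [hT1 τ (hUK τ hτ), hUψ τ hτ, hUψ _ hτ', mul_one]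
  · -- inertia
    by_cases hτK : τ ∈ GK i
    · rw [hT1 τ hτK, hI ℓ hℓ A hA τ hτ, one_mul]
      have hA' : (σ⁻¹ • A).LiesOverPrime ℓ := by
        have h1 : σ⁻¹ (ℓ : AlgebraicClosure ℚ) ∈ (σ⁻¹ • A).nonunits :=
          Fermat.Agent.FrobDensity.mem_nonunits_smul_iff.mpr hA
        rwa [map_natCast] at h1
      refine hI ℓ hℓ (σ⁻¹ • A) hA' _ (Fermat.Agent.Mazur.mem_inertia_smul ?_)
      rwa [smul_inv_smul]
    · rw [hT2 τ hτK]
      exact hI ℓ hℓ A hA _ (mul_mem hτ hτ)

lemma isGalois_top_aux {K L : Type*} [Field K] [NumberField K] [Field L] [Algebra K L]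
    [Alg : Algebra ℚ L] [IsGalois ℚ L] : IsGalois K L := by
  have : IsScalarTower ℚ K L := IsScalarTower.of_algebraMap_eq' (Subsingleton.elim _ _)
  exact IsGalois.tower_top_of_isGalois ℚ K L

/-- the same with any structure of `ℚ`-algebra on the field -/
lemma exists_dihedral_aux {K L : Type} [Field K] [NumberField K] [Field L] [NumberField L]
    [Algebra K L] [Alg : Algebra ℚ L] [IsGalois ℚ L] {G : Type*} [Group G]
    (e : (L ≃ₐ[ℚ] L) ≃* G) (h : ∀ w : HeightOneSpectrum (𝓞 L), edeg K w = 1) :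
    ∃ (L : Type) (_ : Field L) (_ : NumberField L) (_ : Algebra K L), IsGalois ℚ L ∧
      Nonempty ((L ≃ₐ[ℚ] L) ≃* G) ∧ ∀ w : HeightOneSpectrum (𝓞 L),
        (w.under (𝓞 K)).asIdeal.ramificationIdx' w.asIdeal = 1 := by
  obtain rfl : Alg = DivisionRing.toRatAlgebra := Subsingleton.elim _ _
  exact ⟨L, inferInstance, inferInstance, inferInstance, inferInstance, ⟨e⟩, h⟩

/-- The dihedral field of an everywhere unramified character of a quadratic field. -/
theorem exists_dihedral_of_char (hp2 : p ≠ 2) (hK : finrank ℚ K = 2) (ψ : GK i →* C p)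
    (lψ : Lev ψ) (hψ1 : ∃ g, ψ g ≠ 1)
    (hunr : ∀ (v : HeightOneSpectrum (𝓞 K)) (A : ValuationSubring (AlgebraicClosure ℚ)),
      Over i A v → ∀ g : GK i, g.1 ∈ A.inertiaSubgroupIn ℚ → ψ g = 1) :
    ∃ (L : Type) (_ : Field L) (_ : NumberField L) (_ : Algebra K L), IsGalois ℚ L ∧
      Nonempty ((L ≃ₐ[ℚ] L) ≃* DihedralGroup p) ∧ ∀ w : HeightOneSpectrum (𝓞 L),
        (w.under (𝓞 K)).asIdeal.ramificationIdx' w.asIdeal = 1 := by
  classical
  have hH : (GK i).index = 2 := (index_GK i).trans hK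
  obtain ⟨σ, hσ⟩ : ∃ σ : GQ, σ ∉ GK i := by
    by_contra hcon
    push Not at hcon
    have : GK i = ⊤ := eq_top_iff.mpr fun x _ => hcon x
    rw [this, Subgroup.index_top] at hH
    omega
  obtain ⟨ρ, h1, h2, h3⟩ := exists_dihedral_hom (hp.out.odd_of_ne_two hp2) hH ψ hσ
    (fun g hg => conj_mul_eq_one hK ψ lψ hunr hσ hg)
  let _ : TopologicalSpace (DihedralGroup p) := ⊥
  have : DiscreteTopology (DihedralGroup p) := ⟨rfl⟩
  -- the kernel
  have hker : ∀ g : GQ, ρ g = 1 → ∃ h : g ∈ GK i, ψ ⟨g, h⟩ = 1 := by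
    intro g hg
    by_cases hgK : g ∈ GK i
    · refine ⟨hgK, ?_⟩
      have h4 := h1 ⟨g, hgK⟩
      rw [hg, DihedralGroup.one_def, DihedralGroup.r.injEq] at h4
      exact toAdd_eq_zero.mp h4.symm
    · obtain ⟨a, ha⟩ := h2 g hgK
      rw [hg, DihedralGroup.one_def] at ha
      cases ha
  have hker' : ∀ g : GK i, ψ g = 1 → ρ g = 1 := by
    intro g hg
    rw [h1 g, hg, toAdd_one, DihedralGroup.one_def]
  -- continuity
  have hρ : Continuous ρ := by
    obtain ⟨L, hL, hLψ⟩ := id lψ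
    have hfr : FiniteDimensional ℚ i.toRatAlgHom.fieldRange :=
      LinearEquiv.finiteDimensional (AlgEquiv.ofInjectiveField i.toRatAlgHom).toLinearEquiv
    have hfd : FiniteDimensional ℚ (i.toRatAlgHom.fieldRange ⊔ L :
        IntermediateField ℚ (AlgebraicClosure ℚ)) := IntermediateField.finiteDimensional_sup _ _
    refine continuous_of_continuousAt_one _ ?_
    have h4 : ((i.toRatAlgHom.fieldRange ⊔ L).fixingSubgroup : Set GQ) ∈ nhds 1 :=
      (IntermediateField.fixingSubgroup_isOpen _).mem_nhds (one_mem _)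
    have h5 : (fun _ => (1 : DihedralGroup p)) =ᶠ[nhds 1] ρ := by
      filter_upwards [h4] with τ hτ
      have hτ' := (IntermediateField.mem_fixingSubgroup_iff _ _).mp hτ
      have hτK : τ ∈ GK i := fun x => hτ' _
        ((le_sup_left : i.toRatAlgHom.fieldRange ≤ i.toRatAlgHom.fieldRange ⊔ L) ⟨x, rfl⟩)
      exact (hker' ⟨τ, hτK⟩ (hLψ _ fun x hx => hτ' _
        ((le_sup_right : L ≤ i.toRatAlgHom.fieldRange ⊔ L) hx))).symm
    exact continuousAt_const.congr h5
  -- surjectivity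
  have hs : Function.Surjective ρ := by
    have h4 : Function.Surjective ψ := by
      obtain ⟨g, hg⟩ := hψ1
      intro y
      obtain ⟨c, hc⟩ := Fermat.Agent.Cor.CFTP.exists_pow_eq hg y
      exact ⟨g ^ c, by rw [map_pow, hc]⟩
    intro x
    cases x with
    | r a =>
      obtain ⟨g, hg⟩ := h4 (Multiplicative.ofAdd a)
      exact ⟨g, by rw [h1 g, hg, toAdd_ofAdd]⟩
    | sr a =>
      obtain ⟨g, hg⟩ := h4 (Multiplicative.ofAdd a)
      refine ⟨σ * g, ?_⟩
      rw [map_mul, h3, h1 g, hg, toAdd_ofAdd, DihedralGroup.sr_mul_r, zero_add]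
  -- the field
  obtain ⟨e, -⟩ := InvGal.exists_equiv_cutField hρ hs
  have hfin := InvGal.finiteDimensional_cutField hρ
  have hgal := InvGal.isGalois_cutField hρ
  have hnf : NumberField (InvGal.cutField ρ) :=
    { to_charZero := inferInstance
      to_finiteDimensional := hfin }
  have hiL : ∀ x : K, i x ∈ InvGal.cutField ρ := by
    intro x
    rw [InvGal.cutField, IntermediateField.mem_fixedField_iff]
    intro g hg
    exact (hker g hg).1 x
  let aL : Algebra K (InvGal.cutField ρ) :=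
    (i.codRestrict (InvGal.cutField ρ).toSubfield hiL).toAlgebra
  have hgalK : IsGalois K (InvGal.cutField ρ) :=
    @isGalois_top_aux K (InvGal.cutField ρ) _ _ _ aL _ hgal
  refine @exists_dihedral_aux K (InvGal.cutField ρ) _ _ _ hnf aL _ hgal _ _ e fun w => ?_
  let j : InvGal.cutField ρ →+* AlgebraicClosure ℚ := (InvGal.cutField ρ).val.toRingHom
  have hj : ∀ x : K, j (algebraMap K (InvGal.cutField ρ) x) = i x := fun x => rfl
  obtain ⟨q, A, hq, hAq, hA⟩ := exists_over j w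
  have hv : Over i A (w.under (𝓞 K)) := by
    have h4 := hA.under (F := K)
    rwa [show j.comp (algebraMap K (InvGal.cutField ρ)) = i from RingHom.ext hj] at h4
  refine Fermat.Agent.Cor.CFTP.edeg_eq_one_of_inertia hA fun τ hτ hτK x => ?_
  have hτK' : τ ∈ GK i := fun y => by
    have := hτK y
    rwa [hj] at this
  have h5 : ρ τ = 1 := hker' ⟨τ, hτK'⟩ (hunr _ A hv ⟨τ, hτK'⟩ hτ)
  exact (InvGal.eq_one_iff hρ τ).mp h5 _ x.2

/-- **Dihedral extensions from class groups**: `K` a quadratic field, `p` an odd prime which divides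
the class number of `K`. Then there is an extension `L` of `K`, unramified at all finite places,
which is Galois over `ℚ` with group the dihedral group of order `2p`. -/
theorem exists_dihedral (hp2 : p ≠ 2) (hK : finrank ℚ K = 2) (h : p ∣ classNumber K) :
    ∃ (L : Type) (_ : Field L) (_ : NumberField L) (_ : Algebra K L), IsGalois ℚ L ∧
      Nonempty ((L ≃ₐ[ℚ] L) ≃* DihedralGroup p) ∧ ∀ w : HeightOneSpectrum (𝓞 L),
        (w.under (𝓞 K)).asIdeal.ramificationIdx' w.asIdeal = 1 := by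
  have i : K →ₐ[ℚ] AlgebraicClosure ℚ := IsAlgClosed.lift
  obtain ⟨χ, hχ⟩ := Fermat.Agent.Cor.CFTP.exists_char_ne_one (p := p) (A := ClassGroup (𝓞 K)) (by
    rw [Nat.card_eq_fintype_card]
    exact h)
  obtain ⟨ψ, lψ, -, hunr, hne⟩ := Fermat.Agent.Cor.CFTP.exists_unramified_char (Or.inl hp2)
    (i : K →+* AlgebraicClosure ℚ) χ
  exact exists_dihedral_of_char hp2 hK ψ lψ (hne hχ) hunr

end Quadratic

/-! ### Infinitely many quadratic fields -/

/-- For every odd prime `p` there are infinitely many imaginary quadratic fields `K` with an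
extension `L`, unramified over `K`, Galois over `ℚ` with group the dihedral group of order `2p`. -/
theorem infinite_dihedral_imaginary (p : ℕ) (hp : p.Prime) (hp2 : p ≠ 2) :
    {d : ℤ | ∃ (K : Type) (_ : Field K) (_ : NumberField K), finrank ℚ K = 2 ∧ discr K = d ∧
      d < 0 ∧ ∃ (L : Type) (_ : Field L) (_ : NumberField L) (_ : Algebra K L), IsGalois ℚ L ∧
        Nonempty ((L ≃ₐ[ℚ] L) ≃* DihedralGroup p) ∧ ∀ w : HeightOneSpectrum (𝓞 L),
          (w.under (𝓞 K)).asIdeal.ramificationIdx' w.asIdeal = 1}.Infinite := by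
  have : Fact p.Prime := ⟨hp⟩
  refine (nagell p hp.pos).mono ?_
  rintro d ⟨K, i1, i2, hK, hd, hd0, h⟩
  exact ⟨K, i1, i2, hK, hd, hd0, exists_dihedral hp2 hK h⟩

/-- For every odd prime `p` there are infinitely many real quadratic fields `K` with an extension
`L`, unramified over `K` at all finite places, Galois over `ℚ` with group the dihedral group of
order `2p`. -/
theorem infinite_dihedral_real (p : ℕ) (hp : p.Prime) (hp2 : p ≠ 2) :
    {d : ℤ | ∃ (K : Type) (_ : Field K) (_ : NumberField K), finrank ℚ K = 2 ∧ discr K = d ∧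
      0 < d ∧ ∃ (L : Type) (_ : Field L) (_ : NumberField L) (_ : Algebra K L), IsGalois ℚ L ∧
        Nonempty ((L ≃ₐ[ℚ] L) ≃* DihedralGroup p) ∧ ∀ w : HeightOneSpectrum (𝓞 L),
          (w.under (𝓞 K)).asIdeal.ramificationIdx' w.asIdeal = 1}.Infinite := by
  have : Fact p.Prime := ⟨hp⟩
  refine (weinberger p hp.pos).mono ?_
  rintro d ⟨K, i1, i2, hK, hd, hd0, h⟩
  exact ⟨K, i1, i2, hK, hd, hd0, exists_dihedral hp2 hK h⟩

/-- An imaginary quadratic field is totally complex. -/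
lemma isTotallyComplex_of_discr_neg {K : Type*} [Field K] [NumberField K]
    (hK : finrank ℚ K = 2) (hd : discr K < 0) : IsTotallyComplex K := by
  have h1 := sign_discr K
  have h2 := InfinitePlace.card_add_two_mul_card_eq_rank K
  rw [hK] at h2
  have h3 : InfinitePlace.nrComplexPlaces K ≠ 0 := by
    intro h0
    rw [h0, pow_zero] at h1
    have := Int.sign_eq_one_iff_pos.mp h1
    omega
  exact nrRealPlaces_eq_zero_iff.mp (by omega)

/-- For every prime `p` (also `p = 2`) there are infinitely many imaginary quadratic fields with a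
Galois extension of degree `p` which is unramified at all finite places. -/
theorem infinite_unramified_imaginary (p : ℕ) (hp : p.Prime) :
    {d : ℤ | ∃ (K : Type) (_ : Field K) (_ : NumberField K), finrank ℚ K = 2 ∧ discr K = d ∧
      d < 0 ∧ ∃ (L : Type) (_ : Field L) (_ : NumberField L) (_ : Algebra K L), IsGalois K L ∧
        finrank K L = p ∧ ∀ w : HeightOneSpectrum (𝓞 L),
          (w.under (𝓞 K)).asIdeal.ramificationIdx' w.asIdeal = 1}.Infinite := by
  have : Fact p.Prime := ⟨hp⟩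
  refine (nagell p hp.pos).mono ?_
  rintro d ⟨K, i1, i2, hK, hd, hd0, h⟩
  exact ⟨K, i1, i2, hK, hd, hd0, Fermat.Agent.Cor.CFTP.exists_unramified
    (Or.inr (isTotallyComplex_of_discr_neg hK (hd ▸ hd0))) h⟩

/-- For every odd prime `p` there are infinitely many real quadratic fields with a Galois extension
of degree `p` which is unramified at all finite places. -/
theorem infinite_unramified_real (p : ℕ) (hp : p.Prime) (hp2 : p ≠ 2) :
    {d : ℤ | ∃ (K : Type) (_ : Field K) (_ : NumberField K), finrank ℚ K = 2 ∧ discr K = d ∧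
      0 < d ∧ ∃ (L : Type) (_ : Field L) (_ : NumberField L) (_ : Algebra K L), IsGalois K L ∧
        finrank K L = p ∧ ∀ w : HeightOneSpectrum (𝓞 L),
          (w.under (𝓞 K)).asIdeal.ramificationIdx' w.asIdeal = 1}.Infinite := by
  have : Fact p.Prime := ⟨hp⟩
  refine (weinberger p hp.pos).mono ?_
  rintro d ⟨K, i1, i2, hK, hd, hd0, h⟩
  exact ⟨K, i1, i2, hK, hd, hd0, Fermat.Agent.Cor.CFTP.exists_unramified (Or.inl hp2) h⟩

end Fermat.Agent.Cor.Nagell
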