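import Mathlib

/-!
# The sequence `V_k(P, Q)` at `Q` a power of a prime `q ≡ 11` modulo `12`

`V_0 = 2`, `V_1 = P`, `V_{k+2} = P V_{k+1} - Q V_k`; so `V_k = β ^ k + β' ^ k` for the roots of
`X² - P X + Q`. For `Q = q ^ j`, `j ≥ 1`, and a prime `ℓ ≠ q` we have `V_ℓ ≠ ± 1`.
-/

set_option autoImplicit false

namespace Fermat.Agent.Cor.Nagell

/-- The companion Lucas sequence. -/
def V (P Q : ℤ) : ℕ → ℤ
  | 0 => 2
  | 1 => P
  | k + 2 => P * V P Q (k + 1) - Q * V P Q k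

variable {P Q : ℤ}

theorem V_zero : V P Q 0 = 2 := by rw [V]

theorem V_one : V P Q 1 = P := by rw [V]

theorem V_add_two (k : ℕ) : V P Q (k + 2) = P * V P Q (k + 1) - Q * V P Q k := by rw [V]

theorem V_two : V P Q 2 = P ^ 2 - 2 * Q := by
  rw [V_add_two, V_one, V_zero]
  ring

/-- `V_k` is the sum of the powers of the roots. -/
theorem V_eq {R : Type*} [CommRing R] {x y : R} (hP : x + y = P) (hQ : x * y = Q) (k : ℕ) :
    x ^ k + y ^ k = (V P Q k : R) := by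
  induction k using Nat.twoStepInduction with
  | zero => rw [V_zero]; norm_num
  | one => rw [V_one, pow_one, pow_one, hP]
  | more k ih1 ih2 =>
    rw [V_add_two]
    push_cast
    rw [← ih1, ← ih2, ← hP, ← hQ]
    ring

/-- `P` divides `V_k` for `k` odd. -/
theorem dvd_V (k : ℕ) : P ∣ V P Q (2 * k + 1) := by
  induction k with
  | zero => rw [mul_zero, zero_add, V_one]
  | succ k ih =>
    have h : 2 * (k + 1) + 1 = (2 * k + 1) + 2 := by ring
    rw [h, V_add_two]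
    exact dvd_sub (dvd_mul_right _ _) (ih.mul_left _)

/-- `V_k ≡ P ^ k (1 - k Q)` modulo `Q²` for `k ≥ 2`, if `P² = 1`. -/
theorem V_congr (hP : P ^ 2 = 1) (k : ℕ) :
    Q ^ 2 ∣ V P Q (k + 2) - P ^ k * (1 - (k + 2) * Q) := by
  induction k using Nat.twoStepInduction with
  | zero =>
    rw [V_two, hP]
    refine ⟨0, ?_⟩
    push_cast
    ring
  | one =>
    have h : V P Q (1 + 2) = P * (P ^ 2 - 2 * Q) - Q * P := by
      rw [V_add_two, V_two, V_one]
    rw [h, hP]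
    refine ⟨0, ?_⟩
    push_cast
    ring
  | more k ih1 ih2 =>
    obtain ⟨a, ha⟩ := ih1
    obtain ⟨b, hb⟩ := ih2
    rw [V_add_two (k + 2)]
    refine ⟨P * b - Q * a + (k + 2) * P ^ k, ?_⟩
    have ha' : V P Q (k + 2) = Q ^ 2 * a + P ^ k * (1 - (k + 2) * Q) := by linear_combination ha
    have hb' : V P Q (k + 2 + 1) = Q ^ 2 * b + P ^ (k + 1) * (1 - ((k + 1 : ℕ) + 2) * Q) := by
      linear_combination hb
    rw [ha', hb']
    push_cast
    linear_combination (P ^ k * (1 - (k + 1 + 2) * Q) - P ^ k * (1 - (k + 2 + 2) * Q)) * hP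

theorem eq_or_eq_neg_of_sq {x : ℤ} (h : x ^ 2 = 1) : x = 1 ∨ x = -1 := by
  have h1 : (x - 1) * (x + 1) = 0 := by linear_combination h
  rcases mul_eq_zero.mp h1 with h2 | h2
  · left; linarith
  · right; linarith

/-- **`V_ℓ ≠ ± 1` for `Q` a power of `q`, `q ≡ 11` modulo `12`, `ℓ ≠ q` a prime.** -/
theorem V_ne {q : ℕ} (hq : q.Prime) (h12 : q % 12 = 11) {j : ℕ} (hj : 0 < j) {ℓ : ℕ}
    (hℓ : ℓ.Prime) (hqℓ : q ≠ ℓ) : V P (q ^ j : ℤ) ℓ ≠ 1 ∧ V P (q ^ j : ℤ) ℓ ≠ -1 := by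
  have hqQ : (q : ℤ) ∣ (q : ℤ) ^ j := dvd_pow_self _ hj.ne'
  have hq2 : ¬ (q : ℤ) ∣ 2 := by
    intro h
    have h1 : q ∣ 2 := by exact_mod_cast h
    have h2 := (Nat.prime_dvd_prime_iff_eq hq Nat.prime_two).mp h1
    omega
  rcases hℓ.eq_two_or_odd' with rfl | hodd
  · -- `ℓ = 2`
    rw [V_two]
    constructor
    · intro h
      -- `P² = 2 Q + 1`
      have hodd : ((q : ℤ) ^ j) % 2 = 1 := by
        have h1 : Odd ((q : ℤ) ^ j) := (by
          rw [← Int.natCast_pow, Int.odd_coe_nat]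
          exact (Nat.odd_iff.mpr (by omega)).pow)
        exact Int.odd_iff.mp h1
      have h8 : P ^ 2 % 8 = 0 ∨ P ^ 2 % 8 = 1 ∨ P ^ 2 % 8 = 4 := by
        have h2 : P % 8 = 0 ∨ P % 8 = 1 ∨ P % 8 = 2 ∨ P % 8 = 3 ∨ P % 8 = 4 ∨ P % 8 = 5 ∨
            P % 8 = 6 ∨ P % 8 = 7 := by omega
        rcases h2 with h2 | h2 | h2 | h2 | h2 | h2 | h2 | h2 <;> simp [pow_two, Int.mul_emod, h2]
      omega
    · intro h
      -- `P² = 2 Q - 1`, so `-1` is a square modulo `q`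
      have : Fact q.Prime := ⟨hq⟩
      have h1 : ((P : ZMod q)) ^ 2 = -1 := by
        have h2 : ((P ^ 2 - 2 * (q : ℤ) ^ j : ℤ) : ZMod q) = ((-1 : ℤ) : ZMod q) := by rw [h]
        push_cast at h2
        rw [ZMod.natCast_self, zero_pow hj.ne', mul_zero, sub_zero] at h2
        exact h2
      have h2 : IsSquare (-1 : ZMod q) := ⟨(P : ZMod q), by rw [← h1, sq]⟩
      have h3 := (ZMod.exists_sq_eq_neg_one_iff (p := q)).mp h2
      omega
  · -- `ℓ` odd
    obtain ⟨k, hk⟩ := hodd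
    have h3 : 3 ≤ ℓ := by
      have := hℓ.two_le
      omega
    have hk1 : 1 ≤ k := by omega
    have key : ∀ ε : ℤ, ε ^ 2 = 1 → V P ((q : ℤ) ^ j) ℓ ≠ ε := by
      intro ε hε h
      have hPdvd : P ∣ 1 := by
        have h4 := dvd_V (P := P) (Q := (q : ℤ) ^ j) k
        rw [← hk, h] at h4
        exact h4.trans ⟨ε, by rw [← hε, sq]⟩
      have hP : P ^ 2 = 1 := by
        rcases Int.isUnit_iff.mp (isUnit_of_dvd_one hPdvd) with h5 | h5 <;> rw [h5] <;> norm_num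
      have h4 := V_congr (P := P) (Q := (q : ℤ) ^ j) hP (ℓ - 2)
      have h5 : ℓ - 2 + 2 = ℓ := by omega
      rw [h5, h] at h4
      have h6 : P ^ (ℓ - 2) = P := by
        have h7 : ℓ - 2 = 2 * (k - 1) + 1 := by omega
        rw [h7, pow_succ, pow_mul, hP, one_pow, one_mul]
      have h7 : (((ℓ - 2 : ℕ) : ℤ) + 2) = ℓ := by omega
      rw [h6, h7] at h4
      -- multiply by `P`
      have h8 : ((q : ℤ) ^ j) ^ 2 ∣ P * ε - (1 - ℓ * (q : ℤ) ^ j) := by
        have h9 := h4.mul_left P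
        have h10 : P * (ε - P * (1 - ℓ * (q : ℤ) ^ j)) =
            P * ε - (1 - ℓ * (q : ℤ) ^ j) := by
          linear_combination (-(1 - ℓ * (q : ℤ) ^ j)) * hP
        rwa [h10] at h9
      have h9 : (P * ε) ^ 2 = 1 := by rw [mul_pow, hP, hε, one_mul]
      have hQ0 : (q : ℤ) ^ j ≠ 0 := pow_ne_zero _ (by exact_mod_cast hq.ne_zero)
      rcases eq_or_eq_neg_of_sq h9 with h10 | h10
      · rw [h10] at h8
        have h11 : ((q : ℤ) ^ j) * (q : ℤ) ^ j ∣ ℓ * (q : ℤ) ^ j := by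
          have h12 : (1 : ℤ) - (1 - ℓ * (q : ℤ) ^ j) = ℓ * (q : ℤ) ^ j := by ring
          rwa [h12, sq] at h8
        have h13 := (mul_dvd_mul_iff_right hQ0).mp h11
        have h14 : q ∣ ℓ := by exact_mod_cast hqQ.trans h13
        exact hqℓ ((Nat.prime_dvd_prime_iff_eq hq hℓ).mp h14)
      · rw [h10] at h8
        have h11 : (q : ℤ) ∣ -1 - (1 - ℓ * (q : ℤ) ^ j) :=
          (hqQ.trans (dvd_pow_self _ two_ne_zero)).trans h8
        apply hq2
        have h12 : (2 : ℤ) = ℓ * (q : ℤ) ^ j - (-1 - (1 - ℓ * (q : ℤ) ^ j)) := by ring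
        rw [h12]
        exact dvd_sub (hqQ.mul_left _) h11
    exact ⟨key 1 (by norm_num), key (-1) (by norm_num)⟩

end Fermat.Agent.Cor.Nagell
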