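import Fermat.Agent.Corollaries.Nagell.Quad

/-!
# A class of order `n` in `ℚ(√(r²ⁿ + 4))`

`K` is a real quadratic field which contains a square root `s` of `r ^ (2 n) + 4`, `r` odd. The
unit `ε = (rⁿ + s) / 2` has norm `-1`, the number `α = 1 + ε` has norm `rⁿ` and trace `rⁿ + 2`, and its
ideal is the `n`-th power of an ideal. The class of this ideal has order `n`, if
* for every prime `ℓ ∣ n` there is a prime `p ∣ r` such that `2` and `-2` are not `ℓ`-th powers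
  modulo `p`;
* `rⁿ ≠ V_ℓ(t, -1)` for every odd prime `ℓ ∣ n` and every integer `t`
(`exists_orderOf_eq_real`).
-/

set_option autoImplicit false

namespace Fermat.Agent.Cor.Nagell

open NumberField Module Polynomial

variable {K : Type*} [Field K] [NumberField K]

theorem ratCast_ne_of {D : ℤ} (hD : ∀ c : ℚ, c ^ 2 ≠ D) {s : K} (hs : s ^ 2 = D) (c : ℚ) :
    s ≠ c := by
  rintro rfl
  have h1 : ((c ^ 2 : ℚ) : K) = ((D : ℚ) : K) := by push_cast; exact hs
  exact hD c (Rat.cast_injective h1)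

/-- Every element of `K` is `a + b s`. -/
theorem exists_coord_of (hK : finrank ℚ K = 2) {D : ℤ} (hD : ∀ c : ℚ, c ^ 2 ≠ D) {s : K}
    (hs : s ^ 2 = D) (x : K) : ∃ a b : ℚ, x = a + b * s := by
  have hli : LinearIndependent ℚ ![(1 : K), s] := by
    rw [LinearIndependent.pair_iff]
    intro a b h
    rw [Algebra.smul_def, Algebra.smul_def, mul_one, eq_ratCast, eq_ratCast] at h
    have hb : b = 0 := by
      by_contra hb
      have hb' : (b : K) ≠ 0 := by exact_mod_cast hb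
      apply ratCast_ne_of hD hs (-(a / b))
      push_cast
      field_simp
      linear_combination h
    rw [hb, Rat.cast_zero, zero_mul, add_zero] at h
    exact ⟨by exact_mod_cast h, hb⟩
  let B := basisOfLinearIndependentOfCardEqFinrank hli (by rw [Fintype.card_fin, hK])
  have h := B.sum_repr x
  rw [Fin.sum_univ_two] at h
  have h0 : B 0 = 1 := by
    rw [coe_basisOfLinearIndependentOfCardEqFinrank]; rfl
  have h1 : B 1 = s := by
    rw [coe_basisOfLinearIndependentOfCardEqFinrank]; rfl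
  rw [h0, h1, Algebra.smul_def, Algebra.smul_def, mul_one, eq_ratCast, eq_ratCast] at h
  exact ⟨_, _, h.symm⟩

/-- The conjugation. -/
theorem exists_conj_of (hK : finrank ℚ K = 2) {D : ℤ} (hD : ∀ c : ℚ, c ^ 2 ≠ D) {s : K}
    (hs : s ^ 2 = D) : ∃ τ : K ≃ₐ[ℚ] K, τ s = -s := by
  have : Algebra.IsQuadraticExtension ℚ K := { finrank_eq_two' := hK }
  by_contra hc
  push Not at hc
  have h1 : ∀ τ : K ≃ₐ[ℚ] K, τ s = s := fun τ => by
    have h2 : (τ s) ^ 2 = s ^ 2 := by rw [← map_pow, hs, map_intCast]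
    rcases sq_eq_sq_iff_eq_or_eq_neg.mp h2 with h3 | h3
    · exact h3
    · exact absurd h3 (hc τ)
  have h2 : s ∈ (⊥ : IntermediateField ℚ K) := (IsGalois.mem_bot_iff_fixed s).mpr h1
  obtain ⟨c, hc⟩ := IntermediateField.mem_bot.mp h2
  rw [eq_ratCast] at hc
  exact ratCast_ne_of hD hs c hc.symm

/-- The trace `P` and the norm `Q` of an integer `x` of `K`. -/
theorem exists_trace_norm_of (hK : finrank ℚ K = 2) {D : ℤ} (hD : ∀ c : ℚ, c ^ 2 ≠ D) {s : K}
    (hs : s ^ 2 = D) {τ : K ≃ₐ[ℚ] K} (hτ : τ s = -s) (x : 𝓞 K) :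
    ∃ P Q : ℤ, (x : K) + τ x = P ∧ (x : K) * τ x = Q := by
  obtain ⟨a, b, hx⟩ := exists_coord_of hK hD hs (x : K)
  have hτx : τ (x : K) = a - b * s := by
    rw [hx, map_add, map_mul, hτ, map_ratCast, map_ratCast]
    ring
  have hi : IsIntegral ℤ (x : K) := RingOfIntegers.isIntegral_coe x
  have hi' : IsIntegral ℤ (τ (x : K)) := hi.map (τ.restrictScalars ℤ)
  obtain ⟨P, hP⟩ := exists_int_of_rat (hi.add hi') (a := 2 * a)
    (by rw [hτx, hx]; push_cast; ring)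
  obtain ⟨Q, hQ⟩ := exists_int_of_rat (hi.mul hi') (a := a ^ 2 - b ^ 2 * D)
    (by rw [hτx, hx]; push_cast; linear_combination (-(b : K) ^ 2) * hs)
  exact ⟨P, Q, hP, hQ⟩

/-- The norm of a unit is `± 1`. -/
theorem exists_norm_unit (hK : finrank ℚ K = 2) {D : ℤ} (hD : ∀ c : ℚ, c ^ 2 ≠ D) {s : K}
    (hs : s ^ 2 = D) {τ : K ≃ₐ[ℚ] K} (hτ : τ s = -s) (u : (𝓞 K)ˣ) :
    ∃ P Q : ℤ, ((u : 𝓞 K) : K) + τ ((u : 𝓞 K) : K) = P ∧
      ((u : 𝓞 K) : K) * τ ((u : 𝓞 K) : K) = Q ∧ Q ^ 2 = 1 := by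
  obtain ⟨P, Q, hP, hQ⟩ := exists_trace_norm_of hK hD hs hτ (u : 𝓞 K)
  obtain ⟨P', Q', hP', hQ'⟩ := exists_trace_norm_of hK hD hs hτ ((u⁻¹ : (𝓞 K)ˣ) : 𝓞 K)
  refine ⟨P, Q, hP, hQ, ?_⟩
  have hQQ : Q * Q' = 1 := by
    have h1 : ((Q * Q' : ℤ) : K) = ((1 : ℤ) : K) := by
      push_cast
      rw [← hQ, ← hQ']
      have h2 : ((u : 𝓞 K) : K) * (((u⁻¹ : (𝓞 K)ˣ) : 𝓞 K) : K) = 1 := by
        rw [← map_mul, Units.mul_inv, map_one]
      calc ((u : 𝓞 K) : K) * τ ((u : 𝓞 K) : K) *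
          ((((u⁻¹ : (𝓞 K)ˣ) : 𝓞 K) : K) * τ (((u⁻¹ : (𝓞 K)ˣ) : 𝓞 K) : K)) =
          (((u : 𝓞 K) : K) * (((u⁻¹ : (𝓞 K)ˣ) : 𝓞 K) : K)) *
            (τ ((u : 𝓞 K) : K) * τ (((u⁻¹ : (𝓞 K)ˣ) : 𝓞 K) : K)) := by ring
        _ = 1 := by rw [← map_mul τ, h2, map_one, mul_one]
    exact Int.cast_injective h1
  rcases Int.isUnit_iff.mp (IsUnit.of_mul_eq_one _ hQQ) with h | h <;> rw [h] <;> norm_num

/-- In a totally real quadratic field the units are generated by `-1`, `ε` and the `ℓ`-th powers,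
if `ε` is not of the form `± w ^ ℓ`. -/
theorem exists_unit_eq (hK : finrank ℚ K = 2) [IsTotallyReal K] {ℓ : ℕ} (hℓ : ℓ.Prime)
    {ε : (𝓞 K)ˣ} (hε : ∀ w : (𝓞 K)ˣ, ε ≠ w ^ ℓ ∧ ε ≠ -w ^ ℓ) (u : (𝓞 K)ˣ) :
    ∃ (k : ℤ) (w : (𝓞 K)ˣ), u = ε ^ k * w ^ ℓ ∨ u = -(ε ^ k * w ^ ℓ) := by
  have hrank : Units.rank K = 1 := by
    have h1 := InfinitePlace.card_add_two_mul_card_eq_rank K
    have h2 : InfinitePlace.nrComplexPlaces K = 0 :=
      nrComplexPlaces_eq_zero_iff.mpr inferInstance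
    rw [hK, h2, mul_zero, add_zero] at h1
    rw [Units.rank, InfinitePlace.card_eq_nrRealPlaces_add_nrComplexPlaces, h1, h2]
  let _ : Unique (Fin (Units.rank K)) := by rw [hrank]; infer_instance
  -- the torsion
  have htors : ∀ z : Units.torsion K, (z : (𝓞 K)ˣ) = 1 ∨ (z : (𝓞 K)ˣ) = -1 := by
    intro z
    obtain ⟨m, hm, hz⟩ := isOfFinOrder_iff_pow_eq_one.mp ((CommGroup.mem_torsion _).mp z.2)
    obtain ⟨v⟩ : Nonempty (InfinitePlace K) := inferInstance
    have hv : v.IsReal := IsTotallyReal.isReal v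
    have h1 : (((z : (𝓞 K)ˣ) : 𝓞 K) : K) ^ m = 1 := by
      have h2 := congrArg (fun t : (𝓞 K)ˣ => algebraMap (𝓞 K) K (t : 𝓞 K)) hz
      simpa using h2
    have h2 := congrArg (InfinitePlace.embedding_of_isReal hv) h1
    rw [map_pow, map_one] at h2
    have h3 := (pow_eq_one_iff_of_ne_zero hm.ne').mp h2
    rcases h3 with h4 | ⟨h4, -⟩
    · left
      apply Units.ext
      apply FaithfulSMul.algebraMap_injective (𝓞 K) K
      apply (InfinitePlace.embedding_of_isReal hv).injective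
      rw [Units.val_one, map_one, map_one]
      exact h4
    · right
      apply Units.ext
      apply FaithfulSMul.algebraMap_injective (𝓞 K) K
      apply (InfinitePlace.embedding_of_isReal hv).injective
      rw [Units.val_neg, Units.val_one, map_neg, map_one, map_neg, map_one]
      exact h4
  set η : (𝓞 K)ˣ := Units.fundSystem K default with hη
  have hdec : ∀ x : (𝓞 K)ˣ, ∃ b : ℤ, x = η ^ b ∨ x = -η ^ b := by
    intro x
    obtain ⟨⟨z, e⟩, hx, -⟩ := Units.exist_unique_eq_mul_prod K x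
    simp only at hx
    rw [Fintype.prod_unique] at hx
    refine ⟨e default, ?_⟩
    rcases htors z with h | h
    · left; rw [hx, h, one_mul]
    · right; rw [hx, h, neg_one_mul]
  obtain ⟨a, ha⟩ := hdec ε
  obtain ⟨b, hb⟩ := hdec u
  have hℓa : ¬ (ℓ : ℤ) ∣ a := by
    rintro ⟨c, rfl⟩
    have h1 : η ^ ((ℓ : ℤ) * c) = (η ^ c) ^ ℓ := by
      rw [mul_comm, zpow_mul, zpow_natCast]
    rw [h1] at ha
    rcases ha with h | h
    · exact (hε _).1 h
    · exact (hε _).2 h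
  have hcop : IsCoprime a (ℓ : ℤ) := ((Nat.prime_iff_prime_int.mp hℓ).coprime_iff_not_dvd.mpr hℓa).symm
  obtain ⟨x, y, hxy⟩ := hcop
  have hb' : η ^ b = (η ^ a) ^ (x * b) * (η ^ (y * b)) ^ ℓ := by
    rw [← zpow_mul, ← zpow_natCast, ← zpow_mul, ← zpow_add]
    congr 1
    linear_combination (-b) * hxy
  have hea : (η ^ a) ^ (x * b) = ε ^ (x * b) ∨ (η ^ a) ^ (x * b) = -ε ^ (x * b) := by
    rcases ha with h | h
    · left; rw [h]
    · rw [h]
      rcases Int.even_or_odd (x * b) with h2 | h2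
      · left; rw [h2.neg_zpow]
      · right; rw [h2.neg_zpow, neg_neg]
  refine ⟨x * b, η ^ (y * b), ?_⟩
  rcases hb with h | h <;> rcases hea with h2 | h2 <;> rw [h, hb', h2]
  · left; rfl
  · right; rw [neg_mul]
  · right; rfl
  · left; rw [neg_mul, neg_neg]

theorem V_congr_pow (P Q : ℤ) (k : ℕ) : Q ∣ V P Q (k + 1) - P ^ (k + 1) := by
  induction k using Nat.twoStepInduction with
  | zero => rw [zero_add, V_one, pow_one, sub_self]; exact dvd_zero _
  | one =>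
    show Q ∣ V P Q 2 - P ^ 2
    rw [V_two]
    exact ⟨-2, by ring⟩
  | more k ih1 ih2 =>
    obtain ⟨a, ha⟩ := ih2
    rw [V_add_two (k + 1)]
    refine ⟨P * a - V P Q (k + 1), ?_⟩
    have h : V P Q (k + 1 + 1) = Q * a + P ^ (k + 1 + 1) := by linear_combination ha
    rw [h]
    ring

/-- `V_ℓ(-t, Q) = -V_ℓ(t, Q)` for `ℓ` odd. -/
theorem V_neg (P Q : ℤ) (k : ℕ) : V (-P) Q k = (-1) ^ k * V P Q k := by
  induction k using Nat.twoStepInduction with
  | zero => rw [V_zero, V_zero]; norm_num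
  | one => rw [V_one, V_one]; norm_num
  | more k ih1 ih2 =>
    rw [V_add_two, V_add_two, ih1, ih2]
    ring

/-- **A class of order `n` in a real quadratic field.** -/
theorem exists_orderOf_eq_real (hK : finrank ℚ K = 2) [IsTotallyReal K] {n : ℕ} (hn : 0 < n)
    {r : ℤ} (hr : Odd r) (hr2 : 2 ≤ r)
    (hpr : ∀ ℓ : ℕ, ℓ.Prime → ℓ ∣ n → ∃ p : ℕ, p.Prime ∧ (p : ℤ) ∣ r ∧
      ∀ z : ZMod p, z ^ ℓ ≠ 2 ∧ z ^ ℓ ≠ -2)
    (hV : ∀ ℓ : ℕ, ℓ.Prime → ℓ ≠ 2 → ℓ ∣ n → ∀ t : ℤ, V t (-1) ℓ ≠ r ^ n)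
    {s : K} (hs : s ^ 2 = (r : K) ^ (2 * n) + 4) :
    ∃ c : ClassGroup (𝓞 K), orderOf c = n := by
  set t : ℤ := r ^ n with ht
  have ht2 : 2 ≤ t := by
    calc (2 : ℤ) = 2 ^ 1 := by norm_num
      _ ≤ 2 ^ n := pow_le_pow_right₀ (by norm_num) hn
      _ ≤ r ^ n := pow_le_pow_left₀ (by norm_num) hr2 n
  have hs' : s ^ 2 = ((t ^ 2 + 4 : ℤ) : K) := by
    rw [hs, ht]
    push_cast
    rw [← pow_mul, mul_comm 2 n]
  -- `t² + 4` is not a square
  have hD : ∀ c : ℚ, c ^ 2 ≠ ((t ^ 2 + 4 : ℤ) : ℚ) := by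
    intro c hc
    obtain ⟨z, hz⟩ := exists_int_sq hc
    have hz' : |z| ^ 2 = t ^ 2 + 4 := by rw [sq_abs, hz]
    have h0 : 0 ≤ |z| := abs_nonneg z
    have h1 : t < |z| := by nlinarith
    have h3 : |z| < t + 2 := by nlinarith
    have h4 : |z| = t + 1 := by omega
    rw [h4] at hz'
    have h5 : 2 * t = 3 := by linarith [hz', (by ring : (t + 1) ^ 2 = t ^ 2 + 2 * t + 1)]
    omega
  obtain ⟨τ, hτ⟩ := exists_conj_of hK hD hs'
  have hτ2 : τ (2 : K) = 2 := map_ofNat τ 2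
  have hsq : s ^ 2 = (t : K) ^ 2 + 4 := by rw [hs']; push_cast; ring
  -- the unit `ε`
  have hεi : IsIntegral ℤ (((t : K) + s) / 2) := by
    refine ⟨X ^ 2 - C t * X - C 1, by monicity!, ?_⟩
    rw [eval₂_sub, eval₂_sub, eval₂_mul, eval₂_pow, eval₂_X, eval₂_C, eval₂_C]
    simp only [algebraMap_int_eq, eq_intCast, Int.cast_one]
    linear_combination hsq / 4
  let e : 𝓞 K := ⟨((t : K) + s) / 2, hεi⟩
  have he : (e : K) = ((t : K) + s) / 2 := rfl
  have he2 : e * (e - t) = 1 := by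
    apply FaithfulSMul.algebraMap_injective (𝓞 K) K
    have he' : algebraMap (𝓞 K) K e = ((t : K) + s) / 2 := rfl
    rw [map_mul, map_sub, map_one, map_intCast, he']
    linear_combination hsq / 4
  let ε : (𝓞 K)ˣ := ⟨e, e - t, he2, by rw [mul_comm, he2]⟩
  have hε : ((ε : 𝓞 K) : K) = ((t : K) + s) / 2 := rfl
  have hτε : τ ((ε : 𝓞 K) : K) = ((t : K) - s) / 2 := by
    rw [hε, map_div₀, map_add, hτ, hτ2, map_intCast]
    ring
  have hNε : ((ε : 𝓞 K) : K) * τ ((ε : 𝓞 K) : K) = -1 := by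
    rw [hτε, hε]
    linear_combination (-hsq) / 4
  have hTε : ((ε : 𝓞 K) : K) + τ ((ε : 𝓞 K) : K) = t := by
    rw [hτε, hε]
    ring
  -- the number `α`
  set α : 𝓞 K := 1 + ε with hαdef
  have hα : (α : K) = 1 + ((ε : 𝓞 K) : K) := by
    show algebraMap (𝓞 K) K α = _
    rw [hαdef, map_add, map_one]
  have hee : (ε : 𝓞 K) * ε = t * ε + 1 := by
    show e * e = t * e + 1
    linear_combination he2
  have hαα : α * (2 + t - α) = (r : 𝓞 K) ^ n := by
    have h1 : (r : 𝓞 K) ^ n = t := by rw [ht]; push_cast; rfl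
    rw [h1, hαdef]
    linear_combination (-1 : 𝓞 K) * hee
  have hτα : τ (α : K) = 2 + t - α := by
    rw [hα, map_add, map_one]
    linear_combination hTε
  clear_value α
  have hα0 : α ≠ 0 := by
    intro h
    rw [h, zero_mul] at hαα
    have h1 : (r : 𝓞 K) ≠ 0 := by
      have : r ≠ 0 := by omega
      exact_mod_cast this
    exact pow_ne_zero n h1 hαα.symm
  obtain ⟨m, hm⟩ := hr.pow (n := n)
  have htK : (t : 𝓞 K) = 2 * m + 1 := by
    rw [← ht] at hm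
    rw [hm]
    push_cast
    rfl
  obtain ⟨I, hI⟩ := exists_eq_pow_of_mul_eq_pow_of_coprime
    (a := Ideal.span {α}) (b := Ideal.span {2 + (t : 𝓞 K) - α}) (c := Ideal.span {(r : 𝓞 K)})
    (n := n)
    ((Ideal.isCoprime_span_singleton_iff _ _).mpr
      ⟨(1 + (m : 𝓞 K)) * (2 + t - α) - m, -(m : 𝓞 K), by
        have h1 : α * (2 + t - α) = (t : 𝓞 K) := by
          rw [hαα, ht]; push_cast; rfl
        linear_combination (1 + (m : 𝓞 K)) * h1 + htK⟩)
    (by rw [Ideal.span_singleton_mul_span_singleton, hαα, Ideal.span_singleton_pow])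
  have hI0 : I ≠ ⊥ := by
    rintro rfl
    rw [← Ideal.zero_eq_bot, zero_pow hn.ne', Ideal.zero_eq_bot,
      Ideal.span_singleton_eq_bot] at hI
    exact hα0 hI
  have hIm : I ∈ nonZeroDivisors (Ideal (𝓞 K)) := mem_nonZeroDivisors_of_ne_zero hI0
  have hpow : ∀ k : ℕ, ClassGroup.mk0 ⟨I, hIm⟩ ^ k = 1 ↔ (I ^ k).IsPrincipal := by
    intro k
    rw [← map_pow, ← ClassGroup.mk0_eq_one_iff (pow_mem hIm k)]
    rfl
  refine ⟨ClassGroup.mk0 ⟨I, hIm⟩, orderOf_eq_of_pow_and_pow_div_prime hn ?_ ?_⟩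
  · rw [hpow, ← hI]
    exact ⟨⟨α, rfl⟩⟩
  · intro ℓ hℓ hℓn h
    rw [hpow] at h
    obtain ⟨p, hp, hpr, hp2⟩ := hpr ℓ hℓ hℓn
    have hVℓ := hV ℓ hℓ
    obtain ⟨j, hj⟩ := hℓn
    have hjn : n / ℓ = j := by rw [hj, Nat.mul_div_cancel_left _ hℓ.pos]
    rw [hjn] at h
    obtain ⟨⟨β, hβ⟩⟩ := h
    have hβ' : I ^ j = Ideal.span {β} := hβ
    have h1 : Ideal.span {β ^ ℓ} = Ideal.span {α} := by
      rw [← Ideal.span_singleton_pow, ← hβ', ← pow_mul, hI, hj, mul_comm]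
    rw [Ideal.span_singleton_eq_span_singleton] at h1
    obtain ⟨u, hu⟩ := h1
    -- `ε` is not `± w ^ ℓ`
    have hεw : ∀ (w : (𝓞 K)ˣ) (δ : ℤ), δ ^ 2 = 1 → ((ε : 𝓞 K) : K) ≠
        δ * ((w : 𝓞 K) : K) ^ ℓ := by
      intro w δ hδ hw
      obtain ⟨P, Q, hP, hQ, hQ1⟩ := exists_norm_unit hK hD hs' hτ w
      have hτw : τ ((ε : 𝓞 K) : K) = δ * (τ ((w : 𝓞 K) : K)) ^ ℓ := by
        rw [hw, map_mul, map_pow, map_intCast]
      have hδK : (δ : K) ^ 2 = 1 := by exact_mod_cast congrArg (fun x : ℤ => (x : K)) hδ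
      have hQℓ : Q ^ ℓ = -1 := by
        have h2 : ((Q ^ ℓ : ℤ) : K) = ((-1 : ℤ) : K) := by
          push_cast
          rw [← hNε, hτw, ← hQ, hw, mul_pow]
          linear_combination (-(((w : 𝓞 K) : K) ^ ℓ * (τ ((w : 𝓞 K) : K)) ^ ℓ)) * hδK
        exact Int.cast_injective h2
      rcases hℓ.eq_two_or_odd' with rfl | hodd
      · rw [hQ1] at hQℓ
        norm_num at hQℓ
      · have hQ : Q = -1 := by
          rcases eq_or_eq_neg_of_sq hQ1 with h3 | h3
          · rw [h3, one_pow] at hQℓ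
            norm_num at hQℓ
          · exact h3
        subst hQ
        have hVt : (t : ℤ) = δ * V P (-1) ℓ := by
          have h3 := V_eq (R := K) hP hQ ℓ
          have h4 : ((t : ℤ) : K) = ((δ * V P (-1) ℓ : ℤ) : K) := by
            push_cast
            rw [← h3, ← hTε, hτw, hw]
            ring
          exact Int.cast_injective h4
        have hℓ2 : ℓ ≠ 2 := by rintro rfl; exact absurd hodd (by decide)
        have hℓn : ℓ ∣ n := ⟨j, hj⟩
        rcases eq_or_eq_neg_of_sq hδ with h3 | h3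
        · exact hVℓ hℓ2 hℓn P (by rw [hVt, h3, one_mul])
        · refine hVℓ hℓ2 hℓn (-P) ?_
          rw [V_neg, hodd.neg_one_pow, hVt, h3]
    have hεw' : ∀ w : (𝓞 K)ˣ, ε ≠ w ^ ℓ ∧ ε ≠ -w ^ ℓ := by
      intro w
      constructor
      · intro h2
        refine hεw w 1 (by norm_num) ?_
        have h3 := congrArg (fun x : (𝓞 K)ˣ => algebraMap (𝓞 K) K (x : 𝓞 K)) h2
        simpa using h3
      · intro h2
        refine hεw w (-1) (by norm_num) ?_
        have h3 := congrArg (fun x : (𝓞 K)ˣ => algebraMap (𝓞 K) K (x : 𝓞 K)) h2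
        simpa using h3
    obtain ⟨k, w, hkw⟩ := exists_unit_eq hK hℓ hεw' u
    -- `γ = w β`
    set γ : 𝓞 K := β * w with hγ
    obtain ⟨δ, hδ, hαγ⟩ : ∃ δ : ℤ, δ ^ 2 = 1 ∧
        ((ε ^ (-k) : (𝓞 K)ˣ) : 𝓞 K) * α = δ * γ ^ ℓ := by
      have h3 : ((ε ^ (-k) : (𝓞 K)ˣ) : 𝓞 K) * ((ε ^ k : (𝓞 K)ˣ) : 𝓞 K) = 1 := by
        rw [← Units.val_mul, ← zpow_add, neg_add_cancel, zpow_zero, Units.val_one]
      rcases hkw with h2 | h2
      · refine ⟨1, by norm_num, ?_⟩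
        rw [← hu, h2, Units.val_mul, Units.val_pow_eq_pow_val, hγ]
        push_cast
        linear_combination (β ^ ℓ * (w : 𝓞 K) ^ ℓ) * h3
      · refine ⟨-1, by norm_num, ?_⟩
        rw [← hu, h2, Units.val_neg, Units.val_mul, Units.val_pow_eq_pow_val, hγ]
        push_cast
        linear_combination (-(β ^ ℓ * (w : 𝓞 K) ^ ℓ)) * h3
    -- `p ∣ ε ^ (-k) α - α`
    have hpt : (p : 𝓞 K) ∣ (t : 𝓞 K) := by
      obtain ⟨c, hc⟩ := hpr.trans (dvd_pow_self r hn.ne')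
      rw [← ht] at hc
      exact ⟨(c : 𝓞 K), by rw [hc]; push_cast; rfl⟩
    let H : Subgroup (𝓞 K)ˣ :=
      { carrier := {x | (p : 𝓞 K) ∣ (x : 𝓞 K) * α - α}
        one_mem' := by
          show (p : 𝓞 K) ∣ ((1 : (𝓞 K)ˣ) : 𝓞 K) * α - α
          rw [Units.val_one, one_mul, sub_self]
          exact dvd_zero _
        mul_mem' := by
          intro x y hx hy
          show (p : 𝓞 K) ∣ ((x * y : (𝓞 K)ˣ) : 𝓞 K) * α - α
          have h3 : ((x * y : (𝓞 K)ˣ) : 𝓞 K) * α - α =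
              (x : 𝓞 K) * ((y : 𝓞 K) * α - α) + ((x : 𝓞 K) * α - α) := by
            rw [Units.val_mul]; ring
          rw [h3]
          exact dvd_add (Dvd.dvd.mul_left hy _) hx
        inv_mem' := by
          intro x hx
          show (p : 𝓞 K) ∣ ((x⁻¹ : (𝓞 K)ˣ) : 𝓞 K) * α - α
          have h3 : ((x⁻¹ : (𝓞 K)ˣ) : 𝓞 K) * α - α =
              -(((x⁻¹ : (𝓞 K)ˣ) : 𝓞 K) * ((x : 𝓞 K) * α - α)) := by
            have h4 : ((x⁻¹ : (𝓞 K)ˣ) : 𝓞 K) * (x : 𝓞 K) = 1 := by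
              rw [← Units.val_mul, inv_mul_cancel, Units.val_one]
            linear_combination α * h4
          rw [h3]
          exact (dvd_neg.mpr (Dvd.dvd.mul_left hx _)) }
    have hεH : ε ∈ H := by
      show (p : 𝓞 K) ∣ (ε : 𝓞 K) * α - α
      have h3 : (ε : 𝓞 K) * α - α = t * ε := by
        rw [hαdef]
        linear_combination hee
      rw [h3]
      exact hpt.mul_right _
    have hdvd : (p : 𝓞 K) ∣ δ * γ ^ ℓ - α := by
      rw [← hαγ]
      exact H.zpow_mem hεH (-k)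
    obtain ⟨y, hy⟩ := hdvd
    obtain ⟨P, Q, hP, hQ⟩ := exists_trace_norm_of hK hD hs' hτ γ
    obtain ⟨Py, Qy, hPy, -⟩ := exists_trace_norm_of hK hD hs' hτ y
    have hδK : (δ : K) ^ 2 = 1 := by exact_mod_cast congrArg (fun x : ℤ => (x : K)) hδ
    -- traces
    have hVγ := V_eq (R := K) hP hQ ℓ
    have hyK : (δ : K) * (γ : K) ^ ℓ - α = p * y := by
      have h3 := congrArg (algebraMap (𝓞 K) K) hy
      rw [map_sub, map_mul, map_mul, map_pow, map_intCast, map_natCast] at h3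
      exact h3
    have hyτ : (δ : K) * (τ (γ : K)) ^ ℓ - τ (α : K) = p * τ (y : K) := by
      have h3 := congrArg τ hyK
      rw [map_sub, map_mul, map_mul, map_pow, map_intCast, map_natCast] at h3
      exact h3
    have htr : δ * V P Q ℓ - (2 + t) = p * Py := by
      have h3 : ((δ * V P Q ℓ - (2 + t) : ℤ) : K) = ((p * Py : ℤ) : K) := by
        push_cast
        rw [← hVγ, ← hPy]
        rw [hτα] at hyτ
        linear_combination hyK + hyτ
      exact Int.cast_injective h3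
    -- norms
    obtain ⟨-, N, -, hN, hN1⟩ := exists_norm_unit hK hD hs' hτ (ε ^ (-k))
    have hNQ : N * t = Q ^ ℓ := by
      have h3 : ((N * t : ℤ) : K) = ((Q ^ ℓ : ℤ) : K) := by
        have h4 : ((((ε ^ (-k) : (𝓞 K)ˣ) : 𝓞 K) : K)) * (α : K) = δ * (γ : K) ^ ℓ := by
          have h5 := congrArg (algebraMap (𝓞 K) K) hαγ
          rw [map_mul, map_mul, map_pow, map_intCast] at h5
          exact h5
        have h6 := congrArg τ h4
        rw [map_mul, map_mul, map_pow, map_intCast] at h6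
        have h7 : (α : K) * τ (α : K) = t := by
          rw [hτα]
          have h8 := congrArg (algebraMap (𝓞 K) K) hαα
          rw [map_mul, map_sub, map_add, map_pow, map_intCast, map_intCast, map_ofNat] at h8
          have ht' : (t : K) = (r : K) ^ n := by rw [ht, Int.cast_pow]
          exact h8.trans ht'.symm
        push_cast
        rw [← hN, ← hQ, ← h7, mul_pow]
        linear_combination (τ (((ε ^ (-k) : (𝓞 K)ˣ) : 𝓞 K) : K) * τ (α : K)) * h4 +
          (δ * (γ : K) ^ ℓ) * h6 + ((γ : K) ^ ℓ * (τ (γ : K)) ^ ℓ) * hδK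
      exact Int.cast_injective h3
    have hpf : Fact p.Prime := ⟨hp⟩
    have hpt' : (p : ℤ) ∣ t := hpr.trans (dvd_pow_self r hn.ne')
    have hpQ : (p : ℤ) ∣ Q := by
      have h3 : (p : ℤ) ∣ Q ^ ℓ := by
        rw [← hNQ]
        exact hpt'.mul_left N
      exact (Nat.prime_iff_prime_int.mp hp).dvd_of_dvd_pow h3
    -- modulo `p`
    have h3 : (p : ℤ) ∣ V P Q ℓ - P ^ ℓ := by
      obtain ⟨i, hi⟩ : ∃ i, ℓ = i + 1 := ⟨ℓ - 1, by have := hℓ.pos; omega⟩
      rw [hi]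
      exact hpQ.trans (V_congr_pow P Q i)
    have h4 : ((δ : ZMod p)) * (P : ZMod p) ^ ℓ = 2 := by
      have h5 : (p : ℤ) ∣ δ * P ^ ℓ - 2 := by
        have h6 : δ * P ^ ℓ - 2 = p * Py + t - δ * (V P Q ℓ - P ^ ℓ) := by
          linear_combination htr
        rw [h6]
        exact dvd_sub (dvd_add (dvd_mul_right _ _) hpt') (h3.mul_left δ)
      have h7 := (ZMod.intCast_zmod_eq_zero_iff_dvd _ p).mpr h5
      push_cast at h7
      exact sub_eq_zero.mp h7
    rcases eq_or_eq_neg_of_sq hδ with h5 | h5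
    · rw [h5] at h4
      push_cast at h4
      rw [one_mul] at h4
      exact (hp2 _).1 h4
    · rw [h5] at h4
      push_cast at h4
      refine (hp2 (P : ZMod p)).2 ?_
      linear_combination -h4

end Fermat.Agent.Cor.Nagell
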