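import Fermat.Agent.Corollaries.Nagell.Lucas

/-!
# Residue classes `r₀` such that `rⁿ ≠ V_ℓ(s, -1)` for all `r ≡ r₀`

`exists_residue`: for `n ≥ 1` there are arbitrarily large primes `p ≡ 3` modulo `4` and a class `r₀`
modulo `p` such that for `r ≡ r₀` the number `rⁿ` is not of the form `V_ℓ(s, -1)`, for every odd prime
`ℓ ∣ n` and every integer `s`. (Take `p ≡ -1` modulo `4 n`, `x` of order `2 (p + 1)` in `𝔽_{p²}`, and
`r₀ⁿ = ± (x + x ^ p)`.)
-/

set_option autoImplicit false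

namespace Fermat.Agent.Cor.Nagell

open Polynomial

/-- In `ZMod p`, `p ≡ -1` modulo `4 n`, one of `c`, `-c` is an `n`-th power. -/
theorem exists_pow_eq_or_neg {p n : ℕ} [Fact p.Prime] (hp : 4 * n ∣ p + 1)
    (c : ZMod p) (hc : c ≠ 0) : ∃ (z : ZMod p) (e : ℤ), e ^ 2 = 1 ∧ z ^ n = e * c := by
  have hp4 : p % 4 = 3 := by
    obtain ⟨k, hk⟩ := hp
    have : p + 1 = 4 * (n * k) := by rw [hk]; ring
    omega
  -- one of `c`, `-c` is a square
  obtain ⟨w, e, he, hw⟩ : ∃ (w : ZMod p) (e : ℤ), e ^ 2 = 1 ∧ w ^ 2 = e * c := by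
    have hE := ZMod.euler_criterion p hc
    rcases ZMod.pow_div_two_eq_neg_one_or_one p hc with h | h
    · obtain ⟨w, hw⟩ := hE.mpr h
      exact ⟨w, 1, by norm_num, by rw [sq, ← hw]; simp⟩
    · have hE' := ZMod.euler_criterion p (neg_ne_zero.mpr hc)
      have h1 : (-c) ^ (p / 2) = 1 := by
        have hodd : Odd (p / 2) := Nat.odd_iff.mpr (by omega)
        rw [hodd.neg_pow, h, neg_neg]
      obtain ⟨w, hw⟩ := hE'.mpr h1
      exact ⟨w, -1, by norm_num, by rw [sq, ← hw]; simp⟩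
  have hw0 : w ≠ 0 := by
    rintro rfl
    rw [zero_pow two_ne_zero] at hw
    have he0 : (e : ZMod p) ≠ 0 := by
      intro h0
      have h1 : ((e ^ 2 : ℤ) : ZMod p) = 1 := by rw [he]; simp
      push_cast at h1
      rw [h0, zero_pow two_ne_zero] at h1
      exact zero_ne_one h1
    exact mul_ne_zero he0 hc hw.symm
  -- `gcd (n, p - 1) ∣ 2`
  have hg : Nat.gcd n (p - 1) ∣ 2 := by
    have h1 : Nat.gcd n (p - 1) ∣ p + 1 :=
      (Nat.gcd_dvd_left _ _).trans ((dvd_mul_left n 4).trans hp)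
    have h2 : Nat.gcd n (p - 1) ∣ p - 1 := Nat.gcd_dvd_right _ _
    have h3 : p + 1 = (p - 1) + 2 := by
      have := (Fact.out : p.Prime).one_lt
      omega
    rw [h3] at h1
    exact (Nat.dvd_add_right h2).mp h1
  obtain ⟨k, hk⟩ := hg
  set u : (ZMod p)ˣ := Units.mk0 w hw0 with hu
  have hu1 : u ^ (p - 1) = 1 := ZMod.units_pow_card_sub_one_eq_one p u
  have hB := Nat.gcd_eq_gcd_ab n (p - 1)
  have h2 : u ^ 2 = (u ^ (Nat.gcdA n (p - 1) * k)) ^ n := by
    have h3 : ((2 : ℕ) : ℤ) = n * (Nat.gcdA n (p - 1) * k) +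
        ((p - 1 : ℕ) : ℤ) * (Nat.gcdB n (p - 1) * k) := by
      have h4 : ((2 : ℕ) : ℤ) = (Nat.gcd n (p - 1) : ℤ) * k := by exact_mod_cast hk
      rw [h4, hB]
      ring
    have h5 : u ^ 2 = u ^ ((2 : ℕ) : ℤ) := (zpow_natCast u 2).symm
    rw [h5, h3, zpow_add, zpow_mul u ((p - 1 : ℕ) : ℤ), zpow_natCast u (p - 1), hu1, one_zpow,
      mul_one, mul_comm (n : ℤ), zpow_mul, zpow_natCast]
  refine ⟨((u ^ (Nat.gcdA n (p - 1) * k) : (ZMod p)ˣ) : ZMod p), e, he, ?_⟩
  rw [← hw]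
  have h6 := congrArg (Units.val) h2
  rw [Units.val_pow_eq_pow_val, Units.val_pow_eq_pow_val] at h6
  rw [← h6]
  rfl

/-- **Residue classes without `V_ℓ(s, -1) = rⁿ`.** -/
theorem exists_residue {n : ℕ} (hn : 0 < n) (B : ℕ) : ∃ (p : ℕ) (r₀ : ℤ), p.Prime ∧ B < p ∧
    p % 4 = 3 ∧ ∀ r : ℤ, (p : ℤ) ∣ r - r₀ → ∀ ℓ : ℕ, ℓ.Prime → ℓ ≠ 2 → ℓ ∣ n →
      ∀ s : ℤ, V s (-1) ℓ ≠ r ^ n := by
  have : NeZero (4 * n) := ⟨by omega⟩
  obtain ⟨p, hpB, hp, hpm⟩ := Nat.forall_exists_prime_gt_and_eq_mod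
    (q := 4 * n) (a := -1) (isUnit_one.neg) B
  have hdvd : 4 * n ∣ p + 1 := by
    rw [← ZMod.natCast_eq_zero_iff]
    push_cast
    rw [hpm]
    ring
  have hp4 : p % 4 = 3 := by
    obtain ⟨k, hk⟩ := hdvd
    have : p + 1 = 4 * (n * k) := by rw [hk]; ring
    omega
  have hpf : Fact p.Prime := ⟨hp⟩
  let F := AlgebraicClosure (ZMod p)
  have : CharP F p := charP_of_injective_algebraMap (algebraMap (ZMod p) F).injective p
  have hN0 : ((2 * (p + 1) : ℕ) : F) ≠ 0 := by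
    intro h
    rw [CharP.cast_eq_zero_iff F p] at h
    have h1 : p ∣ 2 := by
      have h2 : 2 * (p + 1) = 2 * p + 2 := by ring
      rw [h2] at h
      exact (Nat.dvd_add_right (dvd_mul_left p 2)).mp h
    have := Nat.le_of_dvd (by norm_num) h1
    have := hp.two_le
    omega
  have : NeZero ((2 * (p + 1) : ℕ) : F) := ⟨hN0⟩
  obtain ⟨x, hx⟩ := HasEnoughRootsOfUnity.exists_primitiveRoot F (2 * (p + 1))
  have hxp : x ^ (p + 1) = -1 :=
    (hx.pow (by omega) (by ring : 2 * (p + 1) = (p + 1) * 2)).eq_neg_one_of_two_right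
  -- `c = x + x ^ p` is in the prime field
  have hxpp : (x ^ p) ^ p = x := by
    have h1 : (x ^ p) ^ p * x = x * x := by
      obtain ⟨m, hm⟩ : ∃ m, p - 1 = 2 * m := ⟨(p - 1) / 2, by omega⟩
      have h2 : p * p = (2 * (p + 1)) * m + 1 := by
        have h3 : p = 2 * m + 1 := by have := hp.two_le; omega
        rw [h3]; ring
      rw [← pow_mul, h2, pow_succ, pow_mul, hx.pow_eq_one, one_pow, one_mul]
    exact mul_right_cancel₀ (hx.ne_zero (by omega)) h1
  obtain ⟨c, hc⟩ : ∃ c : ZMod p, algebraMap (ZMod p) F c = x + x ^ p := by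
    have h1 : (x + x ^ p) ^ p = x + x ^ p := by
      rw [add_pow_char, hxpp, add_comm]
    have h2 := (Subfield.mem_bot_iff_pow_eq_self F p (x := x + x ^ p)).mpr h1
    have h3 : x + x ^ p ∈ (algebraMap (ZMod p) F).fieldRange := by
      exact (bot_le : (⊥ : Subfield F) ≤ _) h2
    exact h3
  have hxp1 : x ^ (p - 1) ≠ 1 := by
    intro h
    have h1 := hx.dvd_of_pow_eq_one _ h
    have h2 := Nat.le_of_dvd (by have := hp.two_le; omega) h1
    omega
  have hc0 : c ≠ 0 := by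
    rintro rfl
    rw [map_zero] at hc
    have h1 : x * x = 1 := by
      have h2 : x * x ^ p = -1 := by rw [← hxp, pow_succ']
      linear_combination (-x) * hc - h2
    have h3 : x ^ 2 = 1 := by rw [sq, h1]
    have h4 := hx.dvd_of_pow_eq_one _ h3
    have h5 := Nat.le_of_dvd (by norm_num) h4
    have := hp.two_le
    omega
  obtain ⟨z, e, he, hz⟩ := exists_pow_eq_or_neg hdvd c hc0
  obtain ⟨r₀, hr₀⟩ := ZMod.intCast_surjective z
  refine ⟨p, r₀, hp, hpB, hp4, ?_⟩
  intro r hr ℓ hℓ hℓ2 hℓn s hV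
  have hrz : ((r : ℤ) : ZMod p) = z := by
    rw [← hr₀, eq_comm, ZMod.intCast_eq_intCast_iff_dvd_sub]
    exact hr
  have hℓodd : Odd ℓ := hℓ.odd_of_ne_two hℓ2
  -- in `F`
  have hVF : ((V s (-1) ℓ : ℤ) : F) = e * (x + x ^ p) := by
    have h1 : ((V s (-1) ℓ : ℤ) : ZMod p) = e * c := by
      rw [hV]
      push_cast
      rw [hrz, hz]
    have h2 := congrArg (algebraMap (ZMod p) F) h1
    rw [map_intCast, map_mul, map_intCast, hc] at h2
    exact h2
  -- the root `y` of `Y² - s Y - 1`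
  obtain ⟨y, hy⟩ : ∃ y : F, y ^ 2 - s * y - 1 = 0 := by
    obtain ⟨y, hy⟩ := IsAlgClosed.exists_root (X ^ 2 - C (s : F) * X - C (1 : F)) (by
      have : (X ^ 2 - C (s : F) * X - C (1 : F)).degree = 2 := by compute_degree!
      rw [this]; norm_num)
    refine ⟨y, ?_⟩
    simpa [IsRoot] using hy
  set y' : F := s - y with hy'
  have hyy' : y * y' = ((-1 : ℤ) : F) := by
    rw [hy']
    push_cast
    linear_combination -hy
  have hsum : y + y' = (s : F) := by rw [hy']; ring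
  have hVy := V_eq (R := F) hsum hyy' ℓ
  rw [hVF] at hVy
  have heF : (e : F) ^ 2 = 1 := by exact_mod_cast congrArg (fun t : ℤ => (t : F)) he
  have hxx : x * x ^ p = -1 := by rw [← hxp, pow_succ']
  have hprod : y ^ ℓ * y' ^ ℓ = -1 := by
    rw [← mul_pow, hyy']
    push_cast
    exact hℓodd.neg_one_pow
  -- a root `w` with `w ^ ℓ = e x`
  obtain ⟨w, w', hw1, hw2, hw3⟩ : ∃ w w' : F, w + w' = s ∧ w * w' = -1 ∧ w ^ ℓ = e * x := by
    have h1 : (y ^ ℓ - e * x) * (y ^ ℓ - e * x ^ p) = 0 := by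
      linear_combination (y ^ ℓ) * hVy - hprod + (e : F) ^ 2 * hxx - heF
    have hyy'' : y * y' = -1 := by rw [hyy']; push_cast; rfl
    rcases mul_eq_zero.mp h1 with h2 | h2
    · exact ⟨y, y', hsum, hyy'', sub_eq_zero.mp h2⟩
    · refine ⟨y', y, by rw [add_comm, hsum], by rw [mul_comm, hyy''], ?_⟩
      linear_combination hVy - h2
  -- Frobenius
  have hs : (s : F) ^ p = s := by
    have h1 : ((s : ZMod p)) ^ p = s := ZMod.pow_card _
    have h2 := congrArg (algebraMap (ZMod p) F) h1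
    rw [map_pow, map_intCast] at h2
    exact h2
  have hp2 : p ≠ 2 := by omega
  have hpodd : Odd p := hp.odd_of_ne_two hp2
  have hw0 : w ≠ 0 := by
    rintro rfl
    rw [zero_mul] at hw2
    exact one_ne_zero (neg_eq_zero.mp hw2.symm)
  have hepow : (e : F) ^ p = e := by
    have h1 : ((e : ZMod p)) ^ p = e := ZMod.pow_card _
    have h2 := congrArg (algebraMap (ZMod p) F) h1
    rw [map_pow, map_intCast] at h2
    exact h2
  have he0 : (e : F) ≠ 0 := by
    intro h0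
    rw [h0, zero_pow two_ne_zero] at heF
    exact zero_ne_one heF
  have hroot : (w ^ p - w) * (w ^ p - w') = 0 := by
    have h1 : w ^ 2 = s * w + 1 := by
      have h2 : w' = s - w := by rw [← hw1]; ring
      rw [h2] at hw2
      linear_combination -hw2
    have h3 : (w ^ p) ^ 2 = s * w ^ p + 1 := by
      have h4 := congrArg (fun t => t ^ p) h1
      simp only [add_pow_char, mul_pow, one_pow, hs] at h4
      rw [← h4, ← pow_mul, ← pow_mul, mul_comm]
    have h5 : w' = s - w := by rw [← hw1]; ring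
    rw [h5]
    linear_combination h3 - h1
  rcases mul_eq_zero.mp hroot with h1 | h1
  · -- `w` is in the prime field
    have h2 : w ^ p = w := sub_eq_zero.mp h1
    have h3 : x ^ p = x := by
      have h4 : (e : F) * x ^ p = e * x := by
        rw [← hw3]
        calc (e : F) * x ^ p = (e : F) ^ p * x ^ p := by rw [hepow]
          _ = (w ^ ℓ) ^ p := by rw [← mul_pow, hw3]
          _ = (w ^ p) ^ ℓ := by rw [← pow_mul, ← pow_mul, mul_comm]
          _ = w ^ ℓ := by rw [h2]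
      exact mul_left_cancel₀ he0 h4
    apply hxp1
    have h5 : x ^ (p - 1) * x = 1 * x := by
      rw [← pow_succ, Nat.sub_add_cancel hp.one_lt.le, h3, one_mul]
    exact mul_right_cancel₀ (hx.ne_zero (by omega)) h5
  · -- `w ^ (p + 1) = -1`
    have h2 : w ^ p = w' := sub_eq_zero.mp h1
    have h3 : w ^ (p + 1) = -1 := by rw [pow_succ, h2, mul_comm, hw2]
    obtain ⟨m, hm⟩ : ℓ ∣ p + 1 := hℓn.trans ((dvd_mul_left n 4).trans hdvd)
    have h4 : x ^ (2 * m) = 1 := by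
      have h5 : (e : F) ^ (2 * m) = 1 := by rw [pow_mul, heF, one_pow]
      calc x ^ (2 * m) = (e : F) ^ (2 * m) * x ^ (2 * m) := by rw [h5, one_mul]
        _ = (w ^ ℓ) ^ (2 * m) := by rw [← mul_pow, hw3]
        _ = (w ^ (p + 1)) ^ 2 := by rw [← pow_mul, ← pow_mul, hm]; congr 1; ring
        _ = 1 := by rw [h3]; norm_num
    have h6 := hx.dvd_of_pow_eq_one _ h4
    have hm0 : 0 < m := by
      rcases Nat.eq_zero_or_pos m with h0 | h0
      · rw [h0, mul_zero] at hm; omega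
      · exact h0
    have h7 := Nat.le_of_dvd (by omega) h6
    have h8 := hℓ.two_le
    nlinarith

end Fermat.Agent.Cor.Nagell
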